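import Fermat.Agent.S30.Adic
import Fermat.Agent.S31.RootsUnity
import Fermat.Prelude.Def_GaloisRep_ComplexConjugation

set_option autoImplicit false
set_option linter.unusedSectionVars false

/-! # S30 [CY]: the `p`-adic cyclotomic character with values in a complete DVR -/

namespace Fermat.Agent.S30

open IsLocalRing

local notation "Qb" => AlgebraicClosure ℚ
local notation "GQ" => (AlgebraicClosure ℚ ≃ₐ[ℚ] AlgebraicClosure ℚ)

theorem natCast_sub_mem_Ip {O : Type} [CommRing O] {p n a b : ℕ} (h : a ≡ b [MOD p ^ n]) :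
    (a : O) - (b : O) ∈ Ip O p n := by
  rw [mem_Ip]
  have h1 : ((p ^ n : ℕ) : ℤ) ∣ (a : ℤ) - (b : ℤ) := (Nat.modEq_iff_dvd.mp h.symm)
  obtain ⟨c, hc⟩ := h1
  refine ⟨(c : O), ?_⟩
  have := congrArg (Int.cast : ℤ → O) hc
  push_cast at this
  exact this

section roots

variable (p : ℕ) [hp : Fact p.Prime]

theorem exists_zetaN (n : ℕ) : ∃ ζ : Qb, IsPrimitiveRoot ζ (p ^ n) :=
  haveI : NeZero (p ^ n) := ⟨pow_ne_zero _ hp.out.ne_zero⟩
  HasEnoughRootsOfUnity.exists_primitiveRoot Qb (p ^ n)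

/-- a primitive `p ^ n`-th root of unity. -/
noncomputable def zetaN (n : ℕ) : Qb := (exists_zetaN p n).choose

theorem zetaN_spec (n : ℕ) : IsPrimitiveRoot (zetaN p n) (p ^ n) := (exists_zetaN p n).choose_spec

theorem pow_ne_zero' (n : ℕ) : p ^ n ≠ 0 := pow_ne_zero _ hp.out.ne_zero

theorem exists_kk (σ : GQ) (n : ℕ) : ∃ k : ℕ, σ (zetaN p n) = zetaN p n ^ k := by
  have h : (σ (zetaN p n)) ^ (p ^ n) = 1 := by
    rw [← map_pow, (zetaN_spec p n).pow_eq_one, map_one]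
  obtain ⟨k, -, hk⟩ := (zetaN_spec p n).eq_pow_of_pow_eq_one h
  exact ⟨k, hk.symm⟩

/-- the exponent of `σ` on `μ_{p^n}`. -/
noncomputable def kk (σ : GQ) (n : ℕ) : ℕ := (exists_kk p σ n).choose

theorem kk_spec (σ : GQ) (n : ℕ) : σ (zetaN p n) = zetaN p n ^ kk p σ n :=
  (exists_kk p σ n).choose_spec

theorem apply_root (σ : GQ) (n : ℕ) (ζ : Qb) (hζ : ζ ^ (p ^ n) = 1) : σ ζ = ζ ^ kk p σ n := by
  obtain ⟨j, -, rfl⟩ := (zetaN_spec p n).eq_pow_of_pow_eq_one hζ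
  rw [map_pow, kk_spec, ← pow_mul, ← pow_mul, mul_comm]

theorem prim_pow_eq_iff' {z : Qb} {n : ℕ} (h : IsPrimitiveRoot z n) (hn : n ≠ 0) (a b : ℕ) :
    z ^ a = z ^ b ↔ a ≡ b [MOD n] := by
  obtain ⟨u, rfl⟩ := h.isUnit hn
  rw [← Units.val_pow_eq_pow_val, ← Units.val_pow_eq_pow_val, Units.val_inj, pow_eq_pow_iff_modEq,
    ← orderOf_units, ← h.eq_orderOf]

theorem kk_modEq_of_apply {σ : GQ} {n k : ℕ} {ζ : Qb} (hζ : IsPrimitiveRoot ζ (p ^ n))
    (h : σ ζ = ζ ^ k) : kk p σ n ≡ k [MOD p ^ n] := by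
  rw [apply_root p σ n ζ hζ.pow_eq_one] at h
  exact (prim_pow_eq_iff' hζ (pow_ne_zero' p n) _ _).mp h

theorem kk_succ (σ : GQ) (n : ℕ) : kk p σ (n + 1) ≡ kk p σ n [MOD p ^ n] := by
  have h1 : IsPrimitiveRoot (zetaN p (n + 1) ^ p) (p ^ n) :=
    (zetaN_spec p (n + 1)).pow (Nat.pos_of_ne_zero (pow_ne_zero' p (n + 1))) (by rw [pow_succ, mul_comm])
  have h2 : σ (zetaN p (n + 1) ^ p) = (zetaN p (n + 1) ^ p) ^ kk p σ (n + 1) := by
    rw [map_pow, kk_spec, ← pow_mul, ← pow_mul, mul_comm]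
  exact (kk_modEq_of_apply p h1 h2).symm

end roots

variable {O : Type} [CommRing O] [IsDomain O] [IsDiscreteValuationRing O] [CharZero O]
  [IsAdicComplete (maximalIdeal O) O] (p : ℕ) [hp : Fact p.Prime]
  (hpO : (p : O) ∈ maximalIdeal O)

include hpO in
theorem exists_cyc0 (σ : GQ) : ∃ L : O, ∀ n, L - (kk p σ n : O) ∈ Ip O p n :=
  exists_limit hpO (fun n => (kk p σ n : O))
    fun n => natCast_sub_mem_Ip (kk_succ p σ n)

/-- the value of the cyclotomic character. -/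
noncomputable def cyc0 (σ : GQ) : O := (exists_cyc0 p hpO σ).choose

theorem cyc0_spec (σ : GQ) (n : ℕ) : cyc0 p hpO σ - (kk p σ n : O) ∈ Ip O p n :=
  (exists_cyc0 p hpO σ).choose_spec n

theorem cyc0_sub_mem {σ : GQ} {n k : ℕ} {ζ : Qb} (hζ : IsPrimitiveRoot ζ (p ^ n))
    (h : σ ζ = ζ ^ k) : cyc0 p hpO σ - (k : O) ∈ Ip O p n := by
  have h1 := cyc0_spec p hpO σ n
  have h2 : (kk p σ n : O) - (k : O) ∈ Ip O p n := natCast_sub_mem_Ip (kk_modEq_of_apply p hζ h)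
  have : cyc0 p hpO σ - (k : O) = (cyc0 p hpO σ - (kk p σ n : O)) + ((kk p σ n : O) - (k : O)) := by
    ring
  rw [this]
  exact add_mem h1 h2

theorem cyc0_eq_of {σ : GQ} {x : O} (h : ∀ n, x - (kk p σ n : O) ∈ Ip O p n) :
    cyc0 p hpO σ = x := by
  rw [← sub_eq_zero]
  apply eq_zero_of_mem_all hpO
  intro n
  have : cyc0 p hpO σ - x = (cyc0 p hpO σ - (kk p σ n : O)) - (x - (kk p σ n : O)) := by ring
  rw [this]
  exact sub_mem (cyc0_spec p hpO σ n) (h n)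

theorem cyc0_eq_natCast {σ : GQ} {k : ℕ} (h : ∀ n, σ (zetaN p n) = zetaN p n ^ k) :
    cyc0 p hpO σ = k := by
  apply cyc0_eq_of
  intro n
  exact natCast_sub_mem_Ip (kk_modEq_of_apply p (zetaN_spec p n) (h n)).symm

theorem cyc0_one : cyc0 p hpO (1 : GQ) = 1 := by
  have := cyc0_eq_natCast p hpO (σ := 1) (k := 1) (fun n => by simp)
  rw [this, Nat.cast_one]

theorem cyc0_mul (σ τ : GQ) : cyc0 p hpO (σ * τ) = cyc0 p hpO σ * cyc0 p hpO τ := by
  apply cyc0_eq_of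
  intro n
  have h1 : (σ * τ) (zetaN p n) = zetaN p n ^ (kk p σ n * kk p τ n) := by
    rw [AlgEquiv.mul_apply, kk_spec, map_pow, kk_spec, ← pow_mul]
  have h2 : ((kk p σ n * kk p τ n : ℕ) : O) - (kk p (σ * τ) n : O) ∈ Ip O p n :=
    natCast_sub_mem_Ip (kk_modEq_of_apply p (zetaN_spec p n) h1).symm
  have h3 := cyc0_spec p hpO σ n
  have h4 := cyc0_spec p hpO τ n
  have : cyc0 p hpO σ * cyc0 p hpO τ - (kk p (σ * τ) n : O) =
      cyc0 p hpO σ * (cyc0 p hpO τ - (kk p τ n : O)) +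
        (cyc0 p hpO σ - (kk p σ n : O)) * (kk p τ n : O) +
        (((kk p σ n * kk p τ n : ℕ) : O) - (kk p (σ * τ) n : O)) := by
    push_cast
    ring
  rw [this]
  exact add_mem (add_mem (Ideal.mul_mem_left _ _ h4) (Ideal.mul_mem_right _ _ h3)) h2

/-- **[CY]** the `p`-adic cyclotomic character. -/
noncomputable def cycA : GQ →* Oˣ :=
  MonoidHom.toHomUnits
    { toFun := cyc0 p hpO
      map_one' := cyc0_one p hpO
      map_mul' := cyc0_mul p hpO }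

theorem cycA_coe (σ : GQ) : (cycA p hpO σ : O) = cyc0 p hpO σ := rfl

theorem cycA_sub_mem {σ : GQ} {n k : ℕ} {ζ : Qb} (hζ : IsPrimitiveRoot ζ (p ^ n))
    (h : σ ζ = ζ ^ k) : (cycA p hpO σ : O) - (k : O) ∈ Ip O p n := cyc0_sub_mem p hpO hζ h

theorem not_dvd_pow {ℓ : ℕ} (hℓ : ℓ.Prime) (hne : ℓ ≠ p) (n : ℕ) : ¬ ℓ ∣ p ^ n := fun h =>
  hne ((Nat.prime_dvd_prime_iff_eq hℓ hp.out).mp (hℓ.dvd_of_dvd_pow h))

theorem cycA_frobenius (A : ValuationSubring Qb) {ℓ : ℕ} (hA : A.LiesOverPrime ℓ) (hℓ : ℓ.Prime)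
    (hne : ℓ ≠ p) {σ : GQ} (hσ : A.IsFrobeniusAt σ ℓ) : (cycA p hpO σ : O) = ℓ :=
  cyc0_eq_natCast p hpO fun n =>
    S31.frobenius_apply_root A hA hℓ (not_dvd_pow p hℓ hne n) hσ _ (zetaN_spec p n).pow_eq_one

theorem cycA_inertia (A : ValuationSubring Qb) {ℓ : ℕ} (hA : A.LiesOverPrime ℓ) (hℓ : ℓ.Prime)
    (hne : ℓ ≠ p) {σ : GQ} (hσ : σ ∈ A.inertiaSubgroupIn ℚ) : cycA p hpO σ = 1 := by
  apply Units.ext
  rw [cycA_coe, Units.val_one, cyc0_eq_natCast p hpO (k := 1), Nat.cast_one]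
  intro n
  rw [pow_one]
  exact S31.inertia_apply_root A hA hℓ (not_dvd_pow p hℓ hne n) hσ _ (zetaN_spec p n).pow_eq_one

theorem cycA_cont (n : ℕ) : ∃ L : IntermediateField ℚ Qb, FiniteDimensional ℚ L ∧
    ∀ σ : GQ, (∀ x ∈ L, σ x = x) → (cycA p hpO σ : O) - 1 ∈ Ip O p n := by
  have hint : IsIntegral ℚ (zetaN p n) :=
    ((zetaN_spec p n).isIntegral (Nat.pos_of_ne_zero (pow_ne_zero' p n))).tower_top
  refine ⟨IntermediateField.adjoin ℚ {zetaN p n}, IntermediateField.adjoin.finiteDimensional hint,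
    fun σ hσ => ?_⟩
  have := cycA_sub_mem p hpO (σ := σ) (k := 1) (zetaN_spec p n)
    (by rw [pow_one]; exact hσ _ (IntermediateField.mem_adjoin_simple_self ℚ _))
  rwa [Nat.cast_one] at this

theorem complexConjugation_root {ζ : Qb} {m : ℕ} (hm : m ≠ 0) (hζ : ζ ^ m = 1) :
    complexConjugation ζ = ζ⁻¹ := by
  apply complexEmbedding.toRingHom.injective
  show complexEmbedding (complexConjugation ζ) = complexEmbedding ζ⁻¹
  rw [complexEmbedding_complexConjugation, map_inv₀]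
  have h1 : complexEmbedding ζ ^ m = 1 := by rw [← map_pow, hζ, map_one]
  have h2 : ‖complexEmbedding ζ‖ = 1 := Complex.norm_eq_one_of_pow_eq_one h1 hm
  rw [Complex.inv_def, Complex.normSq_eq_norm_sq, h2]
  simp

theorem cycA_complexConjugation : cycA p hpO complexConjugation = -1 := by
  apply Units.ext
  rw [Units.val_neg, Units.val_one, ← sub_eq_zero, sub_neg_eq_add]
  apply eq_zero_of_mem_all hpO
  intro n
  have hpos : 1 ≤ p ^ n := Nat.pos_of_ne_zero (pow_ne_zero' p n)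
  have h1 : complexConjugation (zetaN p n) = zetaN p n ^ (p ^ n - 1) := by
    rw [complexConjugation_root (pow_ne_zero' p n) (zetaN_spec p n).pow_eq_one]
    have hz : zetaN p n ≠ 0 := (zetaN_spec p n).ne_zero (pow_ne_zero' p n)
    symm
    apply eq_inv_of_mul_eq_one_left
    rw [← pow_succ, Nat.sub_add_cancel hpos, (zetaN_spec p n).pow_eq_one]
  have h2 := cycA_sub_mem p hpO (zetaN_spec p n) h1
  rw [Nat.cast_sub hpos] at h2
  have h3 : ((p ^ n : ℕ) : O) ∈ Ip O p n := by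
    rw [mem_Ip]
    exact ⟨1, by push_cast; ring⟩
  have : (cycA p hpO complexConjugation : O) + 1 =
      ((cycA p hpO complexConjugation : O) - (((p ^ n : ℕ) : O) - ((1 : ℕ) : O))) +
        ((p ^ n : ℕ) : O) := by
    push_cast
    ring
  rw [this]
  exact add_mem h2 h3

theorem exists_c0 : ∃ c0 : GQ, c0 * c0 = 1 ∧ cycA p hpO c0 = -1 :=
  ⟨complexConjugation, complexConjugation_mul_self, cycA_complexConjugation p hpO⟩

end Fermat.Agent.S30
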