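import Mathlib

set_option autoImplicit false
set_option linter.style.haveILetI false
set_option linter.unusedSectionVars false

/-! # S30 [AD]: `p`-adic limits and coordinates in a complete discrete valuation ring with finite
residue field -/

namespace Fermat.Agent.S30

open IsLocalRing

/-- the ideal `p^n O`. -/
def Ip (O : Type) [CommRing O] (p n : ℕ) : Ideal O := Ideal.span {(p : O) ^ n}

section basic

variable {O : Type} [CommRing O] (p : ℕ)

theorem mem_Ip {n : ℕ} {x : O} : x ∈ Ip O p n ↔ ∃ y, x = (p : O) ^ n * y := by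
  rw [Ip, Ideal.mem_span_singleton]
  rfl

theorem Ip_eq_pow (n : ℕ) : Ip O p n = Ideal.span {(p : O)} ^ n := by
  rw [Ip, Ideal.span_singleton_pow]

theorem Ip_antitone {m n : ℕ} (h : m ≤ n) : Ip O p n ≤ Ip O p m := by
  rw [Ip_eq_pow, Ip_eq_pow]
  exact Ideal.pow_le_pow_right h

theorem Ip_zero : Ip O p 0 = ⊤ := by
  rw [Ip, pow_zero, Ideal.span_singleton_one]

theorem sub_mem_Ip_of_le {f : ℕ → O} (h : ∀ n, f (n + 1) - f n ∈ Ip O p n) {n k : ℕ}
    (hnk : n ≤ k) : f k - f n ∈ Ip O p n := by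
  induction k, hnk using Nat.le_induction with
  | base => rw [sub_self]; exact zero_mem _
  | succ k hk ih =>
    have : f (k + 1) - f n = (f (k + 1) - f k) + (f k - f n) := by ring
    rw [this]
    exact add_mem (Ip_antitone p hk (h k)) ih

end basic

section dvr

variable {O : Type} [CommRing O] [IsDomain O] [IsDiscreteValuationRing O] [CharZero O]
  (p : ℕ) [Fact p.Prime]

theorem p_ne_zero' : (p : O) ≠ 0 := Nat.cast_ne_zero.mpr (Fact.out : p.Prime).ne_zero

theorem exists_span_p_eq : ∃ e : ℕ, Ideal.span {(p : O)} = maximalIdeal O ^ e := by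
  obtain ⟨ϖ, hϖ⟩ := IsDiscreteValuationRing.exists_irreducible O
  obtain ⟨e, he⟩ := IsDiscreteValuationRing.ideal_eq_span_pow_irreducible
    (s := Ideal.span {(p : O)}) (by
      rw [Ne, Ideal.span_singleton_eq_bot]
      exact p_ne_zero' p) hϖ
  exact ⟨e, by rw [he, hϖ.maximalIdeal_eq, Ideal.span_singleton_pow]⟩

variable {p}

theorem Ip_le_pow (hpO : (p : O) ∈ maximalIdeal O) (n : ℕ) : Ip O p n ≤ maximalIdeal O ^ n := by
  rw [Ip_eq_pow]
  apply Ideal.pow_right_mono
  rw [Ideal.span_singleton_le_iff_mem]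
  exact hpO

variable (p)

theorem exists_pow_le_Ip (n : ℕ) : ∃ m, maximalIdeal O ^ m ≤ Ip O p n := by
  obtain ⟨e, he⟩ := exists_span_p_eq (O := O) p
  exact ⟨e * n, by rw [Ip_eq_pow, he, pow_mul]⟩

variable {p}

theorem eq_zero_of_mem_all (hpO : (p : O) ∈ maximalIdeal O) {x : O} (h : ∀ n, x ∈ Ip O p n) :
    x = 0 := by
  have h1 : x ∈ ⨅ n : ℕ, maximalIdeal O ^ n := by
    rw [Ideal.mem_iInf]
    exact fun n => Ip_le_pow hpO n (h n)
  rw [Ideal.iInf_pow_eq_bot_of_isLocalRing _ (Ideal.IsPrime.ne_top inferInstance)] at h1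
  exact h1

theorem exists_limit [IsAdicComplete (maximalIdeal O) O] (hpO : (p : O) ∈ maximalIdeal O)
    (f : ℕ → O) (h : ∀ n, f (n + 1) - f n ∈ Ip O p n) : ∃ L, ∀ n, L - f n ∈ Ip O p n := by
  obtain ⟨L, hL⟩ := IsPrecomplete.prec (I := maximalIdeal O) (M := O) inferInstance (f := f) (by
    intro m n hmn
    rw [SModEq.sub_mem, smul_eq_mul, Ideal.mul_top]
    have := Ip_le_pow hpO m (sub_mem_Ip_of_le p h hmn)
    rw [← neg_sub]
    exact neg_mem this)
  refine ⟨L, fun n => ?_⟩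
  obtain ⟨m, hm⟩ := exists_pow_le_Ip (O := O) p n
  have h1 := hL (max m n)
  rw [SModEq.sub_mem, smul_eq_mul, Ideal.mul_top] at h1
  have h2 : f (max m n) - L ∈ Ip O p n := hm (Ideal.pow_le_pow_right (le_max_left m n) h1)
  have h3 := sub_mem_Ip_of_le p h (le_max_right m n)
  have : L - f n = -(f (max m n) - L) + (f (max m n) - f n) := by ring
  rw [this]
  exact add_mem (neg_mem h2) h3

end dvr

section coords

variable {O : Type} [CommRing O] [IsDomain O] [IsDiscreteValuationRing O] [CharZero O]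
  [Finite (ResidueField O)] (p : ℕ) [Fact p.Prime]

theorem finite_quot_p : Finite (O ⧸ Ideal.span {(p : O)}) := by
  obtain ⟨e, he⟩ := exists_span_p_eq (O := O) p
  rw [he]
  haveI : Finite (O ⧸ maximalIdeal O) := ‹Finite (ResidueField O)›
  exact Ideal.finite_quotient_pow (IsNoetherian.noetherian _) e

omit [IsDomain O] [IsDiscreteValuationRing O] [CharZero O] [Finite (ResidueField O)] in
theorem exists_basis_of_module {Q : Type*} [AddCommGroup Q] [Finite Q] [Module (ZMod p) Q] :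
    ∃ (d : ℕ) (b : Fin d → Q), (∀ q : Q, ∃ w : Fin d → ℤ, q = ∑ i, w i • b i) ∧
      (∀ w : Fin d → ℤ, ∑ i, w i • b i = 0 → ∀ i, (p : ℤ) ∣ w i) := by
  classical
  let b := Module.finBasis (ZMod p) Q
  have key : ∀ w : Fin (Module.finrank (ZMod p) Q) → ℤ,
      ∑ i, w i • b i = ∑ i, ((w i : ℤ) : ZMod p) • b i := by
    intro w
    refine Finset.sum_congr rfl fun i _ => ?_
    rw [Int.cast_smul_eq_zsmul]
  refine ⟨_, b, fun q => ?_, fun w hw i => ?_⟩
  · refine ⟨fun i => ((b.repr q i).val : ℤ), ?_⟩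
    rw [key]
    conv_lhs => rw [← b.sum_repr q]
    refine Finset.sum_congr rfl fun i _ => ?_
    congr 1
    simp
  · rw [key] at hw
    have := Fintype.linearIndependent_iff.mp b.linearIndependent _ hw i
    exact (ZMod.intCast_zmod_eq_zero_iff_dvd _ _).mp this

omit [IsDomain O] [IsDiscreteValuationRing O] [CharZero O] [Finite (ResidueField O)] in
theorem exists_basis_of_killed {Q : Type*} [AddCommGroup Q] [Finite Q] (h : ∀ x : Q, p • x = 0) :
    ∃ (d : ℕ) (b : Fin d → Q), (∀ q : Q, ∃ w : Fin d → ℤ, q = ∑ i, w i • b i) ∧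
      (∀ w : Fin d → ℤ, ∑ i, w i • b i = 0 → ∀ i, (p : ℤ) ∣ w i) :=
  @exists_basis_of_module p _ Q _ _ (AddCommGroup.zmodModule h)

theorem exists_basis_mod_p : ∃ (d : ℕ) (x : Fin d → O),
    (∀ y : O, ∃ w : Fin d → ℤ, y - ∑ i, (w i : O) * x i ∈ Ip O p 1) ∧
    (∀ w : Fin d → ℤ, ∑ i, (w i : O) * x i ∈ Ip O p 1 → ∀ i, (p : ℤ) ∣ w i) := by
  classical
  set I : Ideal O := Ideal.span {(p : O)} with hI
  have hI1 : Ip O p 1 = I := by rw [Ip, pow_one]
  haveI : Finite (O ⧸ I) := finite_quot_p p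
  obtain ⟨d, b, hb1, hb2⟩ := exists_basis_of_killed p (Q := O ⧸ I) (by
    intro x
    obtain ⟨y, rfl⟩ := Ideal.Quotient.mk_surjective x
    rw [← map_nsmul, Ideal.Quotient.eq_zero_iff_mem, nsmul_eq_mul]
    exact Ideal.mul_mem_right _ _ (Ideal.mem_span_singleton_self _))
  choose x hx using fun i => Ideal.Quotient.mk_surjective (b i)
  have key : ∀ w : Fin d → ℤ,
      Ideal.Quotient.mk I (∑ i, (w i : O) * x i) = ∑ i, w i • b i := by
    intro w
    rw [map_sum]
    refine Finset.sum_congr rfl fun i _ => ?_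
    rw [map_mul, hx, map_intCast, zsmul_eq_mul]
  refine ⟨d, x, fun y => ?_, fun w hw i => ?_⟩
  · obtain ⟨w, hw⟩ := hb1 (Ideal.Quotient.mk I y)
    refine ⟨w, ?_⟩
    rw [hI1, ← Ideal.Quotient.eq_zero_iff_mem, map_sub, key, sub_eq_zero, hw]
  · rw [hI1, ← Ideal.Quotient.eq_zero_iff_mem, key] at hw
    exact hb2 w hw i

variable {p}

theorem exists_approx {d : ℕ} {x : Fin d → O}
    (h1 : ∀ y : O, ∃ w : Fin d → ℤ, y - ∑ i, (w i : O) * x i ∈ Ip O p 1) (n : ℕ) (y : O) :
    ∃ z : Fin d → ℤ, y - ∑ i, (z i : O) * x i ∈ Ip O p n := by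
  induction n with
  | zero => exact ⟨0, by rw [Ip_zero]; exact Submodule.mem_top⟩
  | succ n ih =>
    obtain ⟨z, hz⟩ := ih
    obtain ⟨y', hy'⟩ := (mem_Ip p).mp hz
    obtain ⟨w, hw⟩ := h1 y'
    obtain ⟨y'', hy''⟩ := (mem_Ip p).mp hw
    refine ⟨fun i => z i + (p : ℤ) ^ n * w i, (mem_Ip p).mpr ⟨y'', ?_⟩⟩
    have e : ∑ i, (((z i + (p : ℤ) ^ n * w i : ℤ)) : O) * x i =
        ∑ i, (z i : O) * x i + (p : O) ^ n * ∑ i, (w i : O) * x i := by
      rw [Finset.mul_sum, ← Finset.sum_add_distrib]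
      refine Finset.sum_congr rfl fun i _ => ?_
      push_cast
      ring
    rw [e]
    linear_combination hy' + (p : O) ^ n * hy''

theorem dvd_of_mem_Ip {d : ℕ} {x : Fin d → O}
    (h2 : ∀ w : Fin d → ℤ, ∑ i, (w i : O) * x i ∈ Ip O p 1 → ∀ i, (p : ℤ) ∣ w i) (n : ℕ) :
    ∀ z : Fin d → ℤ, ∑ i, (z i : O) * x i ∈ Ip O p n → ∀ i, ((p ^ n : ℕ) : ℤ) ∣ z i := by
  induction n with
  | zero => intro z _ i; simp
  | succ n ih =>
    intro z hz
    have h3 := h2 z (Ip_antitone p (Nat.le_add_left 1 n) hz)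
    choose z' hz' using h3
    have h4 : ∑ i, (z' i : O) * x i ∈ Ip O p n := by
      obtain ⟨y, hy⟩ := (mem_Ip p).mp hz
      refine (mem_Ip p).mpr ⟨y, ?_⟩
      apply mul_left_cancel₀ (p_ne_zero' (O := O) p)
      have e : (p : O) * ∑ i, (z' i : O) * x i = ∑ i, (z i : O) * x i := by
        rw [Finset.mul_sum]
        refine Finset.sum_congr rfl fun i _ => ?_
        rw [hz' i]
        push_cast
        ring
      rw [e, hy]
      ring
    intro i
    rw [hz' i]
    have := ih z' h4 i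
    push_cast at this ⊢
    rw [pow_succ']
    exact mul_dvd_mul_left _ this

variable (O p)

/-- coordinates of `O / p^n`. -/
theorem exists_coords : ∃ (d : ℕ) (Λ : ∀ n, O →+ (Fin d → ZMod (p ^ n))),
    (∀ n y, Λ n y = 0 → y ∈ Ip O p n) ∧
    ∀ n y i, ZMod.castHom (pow_dvd_pow p n.le_succ) (ZMod (p ^ n)) (Λ (n + 1) y i) = Λ n y i := by
  obtain ⟨d, x, h1, h2⟩ := exists_basis_mod_p (O := O) p
  choose z hz using fun n y => exists_approx h1 n y
  have huniq : ∀ (n : ℕ) (y : O) (w : Fin d → ℤ), y - ∑ i, (w i : O) * x i ∈ Ip O p n →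
      ∀ i, ((w i : ℤ) : ZMod (p ^ n)) = ((z n y i : ℤ) : ZMod (p ^ n)) := by
    intro n y w hw i
    have h3 : ∑ i, (((w i - z n y i : ℤ)) : O) * x i ∈ Ip O p n := by
      have e : ∑ i, (((w i - z n y i : ℤ)) : O) * x i =
          (y - ∑ i, (z n y i : O) * x i) - (y - ∑ i, (w i : O) * x i) := by
        rw [sub_sub_sub_cancel_left, ← Finset.sum_sub_distrib]
        refine Finset.sum_congr rfl fun i _ => ?_
        push_cast
        ring
      rw [e]
      exact sub_mem (hz n y) hw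
    have h4 := dvd_of_mem_Ip h2 n _ h3 i
    rw [← sub_eq_zero, ← Int.cast_sub]
    exact (ZMod.intCast_zmod_eq_zero_iff_dvd _ _).mpr h4
  let Λ : ∀ n, O →+ (Fin d → ZMod (p ^ n)) := fun n =>
    AddMonoidHom.mk' (fun y i => ((z n y i : ℤ) : ZMod (p ^ n))) (by
      intro y y'
      funext i
      rw [Pi.add_apply, ← Int.cast_add]
      refine (huniq n (y + y') (fun i => z n y i + z n y' i) ?_ i).symm
      have e : y + y' - ∑ i, (((z n y i + z n y' i : ℤ)) : O) * x i =
          (y - ∑ i, (z n y i : O) * x i) + (y' - ∑ i, (z n y' i : O) * x i) := by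
        have e1 : ∑ i, (((z n y i + z n y' i : ℤ)) : O) * x i =
            ∑ i, (z n y i : O) * x i + ∑ i, (z n y' i : O) * x i := by
          rw [← Finset.sum_add_distrib]
          refine Finset.sum_congr rfl fun i _ => ?_
          push_cast
          ring
        rw [e1]
        ring
      rw [e]
      exact add_mem (hz n y) (hz n y'))
  refine ⟨d, Λ, fun n y hy => ?_, fun n y i => ?_⟩
  · have h3 : ∀ i, ((p ^ n : ℕ) : ℤ) ∣ z n y i := fun i =>
      (ZMod.intCast_zmod_eq_zero_iff_dvd _ _).mp (congrFun hy i)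
    have h4 : ∑ i, (z n y i : O) * x i ∈ Ip O p n := by
      refine Ideal.sum_mem _ fun i _ => ?_
      obtain ⟨w, hw⟩ := h3 i
      refine (mem_Ip p).mpr ⟨(w : O) * x i, ?_⟩
      rw [hw]
      push_cast
      ring
    have := add_mem (hz n y) h4
    rwa [sub_add_cancel] at this
  · show ZMod.castHom (pow_dvd_pow p n.le_succ) (ZMod (p ^ n))
      ((z (n + 1) y i : ℤ) : ZMod (p ^ (n + 1))) = ((z n y i : ℤ) : ZMod (p ^ n))
    rw [map_intCast]
    exact huniq n y (z (n + 1) y) (Ip_antitone p n.le_succ (hz (n + 1) y)) i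

end coords

end Fermat.Agent.S30
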