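import Mathlib

set_option autoImplicit false

/-! # S30 [GEO], abstract half: a pseudo-character out of a tower of Eichler--Shimura relations -/

namespace Fermat.Agent.S30.PsB

section Level

variable {G R Λ X : Type} [Group G] [Ring R] [AddCommGroup Λ] [Module R Λ] [AddCommGroup X]
  (act : G → X →+ X) (Θ : Λ →+ X) (k : G → ℕ)

/-- `g + k(g) g⁻¹` acts on the Galois translates of the image of `Θ` through `h ∈ R`. -/
def Z (g : G) (h : R) : Prop :=
  ∀ (τ : G) (c : Λ), act g (act τ (Θ c)) + k g • act g⁻¹ (act τ (Θ c)) = act τ (Θ (h • c))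

variable {act Θ k}

theorem Z_one (hone : ∀ x, act 1 x = x) (hk1 : ∀ x : X, k 1 • x = x) : Z act Θ k 1 (2 : R) := by
  intro τ c
  rw [inv_one, hone, hk1, two_smul, map_add, map_add]

theorem Z_unique (hone : ∀ x, act 1 x = x) {g : G} {a b : R} (ha : Z act Θ k g a)
    (hb : Z act Θ k g b) (c : Λ) : Θ ((a - b) • c) = 0 := by
  have h1 := ha 1 c
  have h2 := hb 1 c
  simp only [hone] at h1 h2
  rw [sub_smul, map_sub, ← h1, ← h2, sub_self]

theorem Z_mul (hmul : ∀ a b x, act (a * b) x = act a (act b x)) (hone : ∀ x, act 1 x = x)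
    (hkmul : ∀ g h (x : X), k (g * h) • x = k g • k h • x) {g h : G} {a b u v : R}
    (hg : Z act Θ k g a) (hh : Z act Θ k h b) (hu : Z act Θ k (g * h) u)
    (hv : Z act Θ k (g * h⁻¹) v) (c : Λ) :
    Θ ((u + (k h : R) * v - a * b) • c) = 0 := by
  have e1 := hu 1 c
  have e2 := hv 1 c
  have e3 := hg 1 (b • c)
  have e4 := hh 1 c
  have e5 := hh g⁻¹ c
  simp only [hone] at e1 e2 e3 e4
  rw [sub_smul, add_smul, mul_smul, mul_smul, map_sub, map_add, Nat.cast_smul_eq_nsmul, map_nsmul,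
    ← e1, ← e2, ← e3, ← e5, ← e4]
  simp only [map_add, map_nsmul, ← hmul, mul_inv_rev, inv_inv, smul_add]
  rw [hkmul g h]
  have e6 : k h • k (g * h⁻¹) • act (h * g⁻¹) (Θ c) = k g • act (h * g⁻¹) (Θ c) := by
    rw [smul_comm, ← hkmul, inv_mul_cancel_right]
  rw [e6]
  abel

theorem Z_mul_ex (hmul : ∀ a b x, act (a * b) x = act a (act b x))
    (hkmul : ∀ g h (x : X), k (g * h) • x = k g • k h • x) {g h : G} {a b v : R}
    (hg : Z act Θ k g a) (hh : Z act Θ k h b) (hv : Z act Θ k (g * h⁻¹) v) :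
    Z act Θ k (g * h) (a * b - (k h : R) * v) := by
  intro τ c
  have e2 := hv τ c
  have e3 := hg τ (b • c)
  have e4 := hh τ c
  have e5 := hh (g⁻¹ * τ) c
  rw [sub_smul, mul_smul, mul_smul, map_sub, map_sub, Nat.cast_smul_eq_nsmul, map_nsmul, map_nsmul,
    ← e2, ← e3, ← hmul g⁻¹ τ, ← e5, ← e4]
  simp only [map_add, map_nsmul, ← hmul, mul_inv_rev, inv_inv, smul_add]
  rw [hkmul g h]
  have e6 : k h • k (g * h⁻¹) • act (h * g⁻¹ * τ) (Θ c) = k g • act (h * g⁻¹ * τ) (Θ c) := by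
    rw [smul_comm, ← hkmul, inv_mul_cancel_right]
  simp only [← mul_assoc] at e6 ⊢
  rw [e6]
  abel

theorem Z_pow (hmul : ∀ a b x, act (a * b) x = act a (act b x)) (hone : ∀ x, act 1 x = x)
    (hk1 : ∀ x : X, k 1 • x = x)
    (hkmul : ∀ g h (x : X), k (g * h) • x = k g • k h • x) {g : G} {a : R}
    (hg : Z act Θ k g a) (i : ℕ) : ∃ b : R, Z act Θ k (g ^ i) b := by
  induction i using Nat.strong_induction_on with
  | _ i ih =>
    match i with
    | 0 => exact ⟨2, by rw [pow_zero]; exact Z_one hone hk1⟩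
    | 1 => exact ⟨a, by rw [pow_one]; exact hg⟩
    | (i + 2) =>
      obtain ⟨b, hb⟩ := ih (i + 1) (by omega)
      obtain ⟨v, hv⟩ := ih i (by omega)
      refine ⟨b * a - (k g : R) * v, ?_⟩
      rw [pow_succ]
      refine Z_mul_ex hmul hkmul hb hg ?_
      rwa [pow_succ, mul_inv_cancel_right]

theorem Z_comm (hmul : ∀ a b x, act (a * b) x = act a (act b x))
    (hkmul : ∀ g h (x : X), k (g * h) • x = k g • k h • x) {g h : G} {a : R}
    (H : Z act Θ k (g * h) a) : Z act Θ k (h * g) a := by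
  intro τ c
  have e := congrArg (act h) (H (h⁻¹ * τ) c)
  simp only [map_add, map_nsmul, ← hmul] at e ⊢
  have w1 : h * (g * h * (h⁻¹ * τ)) = h * g * τ := by group
  have w2 : h * ((g * h)⁻¹ * (h⁻¹ * τ)) = (h * g)⁻¹ * τ := by group
  have w3 : h * (h⁻¹ * τ) = τ := by group
  rw [w1, w2, w3] at e
  rw [← e, hkmul, hkmul, smul_comm]

theorem Z_invol {c0 : G} (hc : c0 * c0 = 1) (hk : ∀ x : X, k c0 • x = -x) :
    Z act Θ k c0 (0 : R) := by
  intro τ c
  rw [inv_eq_of_mul_eq_one_right hc, hk, add_neg_cancel, zero_smul, map_zero, map_zero]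

theorem Z_mul_triv (hmul : ∀ a b x, act (a * b) x = act a (act b x)) (hone : ∀ x, act 1 x = x)
    (hkmul : ∀ g h (x : X), k (g * h) • x = k g • k h • x) {σ : G}
    (hσ : ∀ τ c, act σ (act τ (Θ c)) = act τ (Θ c)) (hkσ : ∀ x : X, k σ • x = x) {g : G} {a : R}
    (H : Z act Θ k g a) : Z act Θ k (g * σ) a := by
  intro τ c
  have h1 : act σ⁻¹ (act (g⁻¹ * τ) (Θ c)) = act (g⁻¹ * τ) (Θ c) := by
    conv_lhs => rw [← hσ (g⁻¹ * τ) c]
    rw [← hmul, inv_mul_cancel, hone]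
  rw [hmul, hσ, mul_inv_rev, hmul, ← hmul g⁻¹, h1, hkmul, hkσ, hmul]
  exact H τ c

end Level

/-- the tower. -/
structure Tow (G R Λ O : Type) [Group G] [Ring R] [AddCommGroup Λ] [Module R Λ]
    [CommRing O] where
  X : ℕ → Type
  [grp : ∀ n, AddCommGroup (X n)]
  act : ∀ n, G → X n →+ X n
  act_mul : ∀ n a b x, act n (a * b) x = act n a (act n b x)
  act_one : ∀ n x, act n 1 x = x
  Θ : ∀ n, Λ →+ X n
  k : ℕ → G → ℕ
  k_one : ∀ n (x : X n), k n 1 • x = x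
  k_mul : ∀ n g h (x : X n), k n (g * h) • x = k n g • k n h • x
  I : ℕ → Ideal O
  I_zero : ∀ x, (∀ n, x ∈ I n) → x = 0
  I_lim : ∀ f : ℕ → O, (∀ n, f (n + 1) - f n ∈ I n) → ∃ L, ∀ n, L - f n ∈ I n
  φ : R →+* O
  δ : G →* Oˣ
  δ_k : ∀ n g, (δ g : O) - (k n g : O) ∈ I n
  ker : ∀ n (x : R), (∀ c, Θ n (x • c) = 0) → φ x ∈ I n
  ex : ∀ n g, ∃ h : R, Z (act n) (Θ n) (k n) g h
  compat : ∀ n g (h : R), Z (act (n + 1)) (Θ (n + 1)) (k (n + 1)) g h → Z (act n) (Θ n) (k n) g h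

attribute [instance] Tow.grp

variable {G R Λ O : Type} [Group G] [Ring R] [AddCommGroup Λ] [Module R Λ] [CommRing O]
  (T : Tow G R Λ O)

/-- the relation at level `n`. -/
def Tow.Zn (n : ℕ) (g : G) (h : R) : Prop := Z (T.act n) (T.Θ n) (T.k n) g h

theorem Tow.sub_mem {n : ℕ} {g : G} {a b : R} (ha : T.Zn n g a) (hb : T.Zn n g b) :
    T.φ a - T.φ b ∈ T.I n := by
  rw [← map_sub]
  exact T.ker n _ (Z_unique (T.act_one n) ha hb)

theorem Tow.exists_t : ∃ t : G → O, ∀ n g (h : R), T.Zn n g h → t g - T.φ h ∈ T.I n := by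
  have key : ∀ g : G, ∃ L : O, ∀ n (h : R), T.Zn n g h → L - T.φ h ∈ T.I n := by
    intro g
    choose hn hhn using fun n => T.ex n g
    obtain ⟨L, hL⟩ := T.I_lim (fun n => T.φ (hn n))
      (fun n => T.sub_mem (T.compat n g _ (hhn (n + 1))) (hhn n))
    refine ⟨L, fun n h hh => ?_⟩
    have := (T.I n).add_mem (hL n) (T.sub_mem (hhn n) hh)
    rwa [sub_add_sub_cancel] at this
  choose t ht using key
  exact ⟨t, fun n g h hh => ht g n h hh⟩

variable {T} {t : G → O} (ht : ∀ n g (h : R), T.Zn n g h → t g - T.φ h ∈ T.I n)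
include ht

theorem t_eq {g : G} {h : R} (H : ∀ n, T.Zn n g h) : t g = T.φ h :=
  sub_eq_zero.mp (T.I_zero _ fun n => ht n g h (H n))

theorem t_one : t 1 = 2 := by
  rw [t_eq ht (h := 2) fun n => Z_one (T.act_one n) (T.k_one n), map_ofNat]

theorem t_sub_mem {n : ℕ} {g g' : G} (H : ∀ h : R, T.Zn n g h → T.Zn n g' h) :
    t g' - t g ∈ T.I n := by
  obtain ⟨h, hh⟩ := T.ex n g
  have := (T.I n).sub_mem (ht n g' h (H h hh)) (ht n g h hh)
  rwa [sub_sub_sub_cancel_right] at this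

theorem t_comm (g h : G) : t (g * h) = t (h * g) :=
  (sub_eq_zero.mp (T.I_zero _ fun n =>
    t_sub_mem ht fun _ H => Z_comm (T.act_mul n) (T.k_mul n) H)).symm

theorem t_invol {c0 : G} (hc : c0 * c0 = 1) (hk : ∀ n (x : T.X n), T.k n c0 • x = -x) :
    t c0 = 0 := by
  rw [t_eq ht (h := 0) fun n => Z_invol hc (hk n), map_zero]

theorem t_triv_level {n : ℕ} {σ : G}
    (hσ : ∀ τ c, T.act n σ (T.act n τ (T.Θ n c)) = T.act n τ (T.Θ n c))
    (hkσ : ∀ x : T.X n, T.k n σ • x = x) (g : G) : t (g * σ) - t g ∈ T.I n :=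
  t_sub_mem ht fun _ H => Z_mul_triv (T.act_mul n) (T.act_one n) (T.k_mul n) hσ hkσ H

theorem t_triv {σ : G}
    (hσ : ∀ n τ c, T.act n σ (T.act n τ (T.Θ n c)) = T.act n τ (T.Θ n c))
    (hkσ : ∀ n (x : T.X n), T.k n σ • x = x) (g : G) : t (g * σ) = t g :=
  sub_eq_zero.mp (T.I_zero _ fun n => t_triv_level ht (hσ n) (hkσ n) g)

theorem t_mul (g h : G) : t (g * h) + (T.δ h : O) * t (g * h⁻¹) = t g * t h := by
  refine sub_eq_zero.mp (T.I_zero _ fun n => ?_)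
  obtain ⟨a, ha⟩ := T.ex n g
  obtain ⟨b, hb⟩ := T.ex n h
  obtain ⟨u, hu⟩ := T.ex n (g * h)
  obtain ⟨v, hv⟩ := T.ex n (g * h⁻¹)
  have h0 : T.φ (u + (T.k n h : R) * v - a * b) ∈ T.I n :=
    T.ker n _ (Z_mul (T.act_mul n) (T.act_one n) (T.k_mul n) ha hb hu hv)
  have e : t (g * h) + (T.δ h : O) * t (g * h⁻¹) - t g * t h =
      (t (g * h) - T.φ u) + (T.δ h : O) * (t (g * h⁻¹) - T.φ v)
        + T.φ v * ((T.δ h : O) - (T.k n h : O)) + T.φ (u + (T.k n h : R) * v - a * b)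
        - (t h * (t g - T.φ a) + T.φ a * (t h - T.φ b)) := by
    simp only [map_sub, map_add, map_mul, map_natCast]
    ring
  rw [e]
  exact (T.I n).sub_mem ((T.I n).add_mem ((T.I n).add_mem ((T.I n).add_mem (ht _ _ _ hu)
    ((T.I n).mul_mem_left _ (ht _ _ _ hv))) ((T.I n).mul_mem_left _ (T.δ_k n h))) h0)
    ((T.I n).add_mem ((T.I n).mul_mem_left _ (ht _ _ _ ha)) ((T.I n).mul_mem_left _ (ht _ _ _ hb)))

end Fermat.Agent.S30.PsB
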