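import Mathlib
import Fermat.Agent.S29.GlueM
import Fermat.Agent.S29.DensFinal
import Fermat.Agent.S31.HCe
import Fermat.Agent.S31.RootsUnity
import Fermat.Agent.S30.PsB

set_option autoImplicit false
set_option linter.unusedSectionVars false
set_option linter.style.haveILetI false
set_option synthInstance.maxHeartbeats 400000

/-! # S30 [GEO], concrete half, one level: `Θ_m` on `Λ = Hom_pe(Γ₀(N), ℤ)` and the relations `Z` -/

namespace Fermat.Agent.S30.Geo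

open CongruenceSubgroup ModularCurve Fermat.Agent.S24 Fermat.Agent.S29 Fermat.Agent.S29.Glue
  Fermat.Agent.S31.HC Fermat.Agent.S30.PsB

local notation "Qb" => AlgebraicClosure ℚ
local notation "GQ" => (AlgebraicClosure ℚ ≃ₐ[ℚ] AlgebraicClosure ℚ)

variable (N m : ℕ) [NeZero N] [NeZero m]

/-- reduction of the coefficients modulo `m`. -/
noncomputable def redL : Lam N →+ HH m N where
  toFun c := ⟨(Int.castAddHom (ZMod m)).comp c.1, fun γ hγ => by
    show ((c.1 (Additive.ofMul γ) : ℤ) : ZMod m) = 0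
    rw [c.2 γ hγ, Int.cast_zero]⟩
  map_zero' := by
    apply Subtype.ext
    refine DFunLike.ext _ _ fun γ => ?_
    show (((0 : Additive (Gamma0 N) →+ ℤ) γ : ℤ) : ZMod m) = 0
    rw [AddMonoidHom.zero_apply, Int.cast_zero]
  map_add' c c' := by
    apply Subtype.ext
    refine DFunLike.ext _ _ fun γ => ?_
    show (((c.1 + c'.1) γ : ℤ) : ZMod m) = ((c.1 γ : ℤ) : ZMod m) + ((c'.1 γ : ℤ) : ZMod m)
    rw [AddMonoidHom.add_apply, Int.cast_add]

theorem redL_apply (c : Lam N) (γ : Additive (Gamma0 N)) :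
    (redL N m c).1 γ = ((c.1 γ : ℤ) : ZMod m) := rfl

/-- `Θ_m` on `Λ`. -/
noncomputable def thL : Lam N →+ Xq (FN N)ˣ m := (thetaM N m).toAddMonoidHom.comp (redL N m)

theorem thL_apply (c : Lam N) : thL N m c = thetaM N m (redL N m c) := rfl

/-- the Galois action, additively. -/
noncomputable def actA (σ : GQ) : Xq (FN N)ˣ m →+ Xq (FN N)ˣ m := (actG N m σ).toAddMonoidHom

theorem actA_apply (σ : GQ) (x : Xq (FN N)ˣ m) : actA N m σ x = actG N m σ x := rfl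

theorem actA_mul (a b : GQ) (x : Xq (FN N)ˣ m) :
    actA N m (a * b) x = actA N m a (actA N m b x) := by
  show actG N m (a * b) x = _
  rw [map_mul]
  rfl

theorem actA_one (x : Xq (FN N)ˣ m) : actA N m 1 x = x := by
  show actG N m 1 x = x
  rw [map_one]
  rfl

theorem thL_eq_zero {c : Lam N} (h : thL N m c = 0) : ∃ d : Lam N, c = (m : ℤ) • d := by
  have h1 : redL N m c = 0 := thetaM_injective N m (by rw [map_zero]; exact h)
  apply exists_div_hom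
  intro γ
  have h2 : (redL N m c).1 γ = 0 := by rw [h1]; rfl
  exact (ZMod.intCast_zmod_eq_zero_iff_dvd _ _).mp h2

theorem TH_redL {ℓ : ℕ} (hℓ : ℓ.Prime) (hℓN : ¬ ℓ ∣ N) (c : Lam N) :
    TH m N ℓ (redL N m c) = redL N m ((haveI : Fact ℓ.Prime := ⟨hℓ⟩; hL hℓN) c) := by
  haveI : Fact ℓ.Prime := ⟨hℓ⟩
  apply Subtype.ext
  rw [coe_TH m hℓ hℓN]
  show heckeHom hℓN ((Int.castAddHom (ZMod m)).comp c.1) =
    (Int.castAddHom (ZMod m)).comp (hL hℓN c).1
  rw [heckeHom_comp, coe_hL]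

/-! ### the cyclotomic exponent -/

theorem exists_kk (σ : GQ) : ∃ k : ℕ, ∀ ζ : Qb, ζ ^ m = 1 → σ ζ = ζ ^ k := by
  obtain ⟨ζ0, h0⟩ := HasEnoughRootsOfUnity.exists_primitiveRoot Qb m
  obtain ⟨k, -, hk⟩ := h0.eq_pow_of_pow_eq_one (ξ := σ ζ0)
    (by rw [← map_pow, h0.pow_eq_one, map_one])
  refine ⟨k, fun ζ hζ => ?_⟩
  obtain ⟨j, -, rfl⟩ := h0.eq_pow_of_pow_eq_one hζ
  rw [map_pow, ← hk, ← pow_mul, ← pow_mul, mul_comm]

/-- `σ ζ = ζ ^ kk m σ` on `μ_m`. -/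
noncomputable def kk (σ : GQ) : ℕ := (exists_kk m σ).choose

theorem kk_spec (σ : GQ) (ζ : Qb) (h : ζ ^ m = 1) : σ ζ = ζ ^ kk m σ :=
  (exists_kk m σ).choose_spec ζ h

theorem kk_modEq {σ : GQ} {j : ℕ} (h : ∀ ζ : Qb, ζ ^ m = 1 → σ ζ = ζ ^ j) :
    kk m σ ≡ j [MOD m] := by
  obtain ⟨ζ0, h0⟩ := HasEnoughRootsOfUnity.exists_primitiveRoot Qb m
  rw [← Cyc.prim_pow_eq_iff h0 (NeZero.ne m), ← kk_spec m σ ζ0 h0.pow_eq_one, h ζ0 h0.pow_eq_one]

theorem nsmul_congr {U : Type} [CommGroup U] {a b : ℕ} (h : a ≡ b [MOD m]) (x : Xq U m) :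
    a • x = b • x := by
  rw [← Nat.cast_smul_eq_nsmul (ZMod m), ← Nat.cast_smul_eq_nsmul (ZMod m) b,
    (ZMod.natCast_eq_natCast_iff a b m).2 h]

theorem kk_one {U : Type} [CommGroup U] (x : Xq U m) : kk m 1 • x = x := by
  rw [nsmul_congr m (kk_modEq m (σ := 1) (j := 1) fun ζ _ => by rw [pow_one]; rfl), one_smul]

theorem kk_mul {U : Type} [CommGroup U] (g h : GQ) (x : Xq U m) :
    kk m (g * h) • x = kk m g • kk m h • x := by
  rw [nsmul_congr m (kk_modEq m (σ := g * h) (j := kk m g * kk m h) fun ζ hζ => by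
    rw [AlgEquiv.mul_apply, kk_spec m h ζ hζ, map_pow, kk_spec m g ζ hζ, ← pow_mul]), mul_smul]

theorem kk_triv {U : Type} [CommGroup U] {σ : GQ} (h : ∀ ζ : Qb, ζ ^ m = 1 → σ ζ = ζ)
    (x : Xq U m) : kk m σ • x = x := by
  rw [nsmul_congr m (kk_modEq m (σ := σ) (j := 1) fun ζ hζ => by rw [pow_one, h ζ hζ]), one_smul]

theorem kk_inv {U : Type} [CommGroup U] {σ : GQ} (h : ∀ ζ : Qb, ζ ^ m = 1 → σ ζ = ζ⁻¹)
    (x : Xq U m) : kk m σ • x = -x := by
  have h1 : kk m σ + 1 ≡ 0 [MOD m] := by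
    obtain ⟨ζ0, h0⟩ := HasEnoughRootsOfUnity.exists_primitiveRoot Qb m
    rw [← Cyc.prim_pow_eq_iff h0 (NeZero.ne m), pow_succ, ← kk_spec m σ ζ0 h0.pow_eq_one,
      h ζ0 h0.pow_eq_one, pow_zero, inv_mul_cancel₀ (h0.ne_zero (NeZero.ne m))]
  have h2 := nsmul_congr m h1 x
  rw [add_smul, one_smul, zero_smul] at h2
  exact eq_neg_of_add_eq_zero_left h2

theorem kk_dvd {m' : ℕ} [NeZero m'] (hd : m' ∣ m) {U : Type} [CommGroup U] (σ : GQ)
    (x : Xq U m') : kk m σ • x = kk m' σ • x := by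
  refine (nsmul_congr m' (kk_modEq m' fun ζ hζ => kk_spec m σ ζ ?_) x).symm
  obtain ⟨d, rfl⟩ := hd
  rw [pow_mul, hζ, one_pow]

/-! ### the module structure -/

variable (S : Set ℕ)

/-- `𝕋~` acts on `Λ` through the first projection. -/
noncomputable instance modCC : Module (CC N S) (Lam N) := Module.compHom (Lam N) (prLr N S)

theorem smul_CC (x : CC N S) (c : Lam N) : x • c = x.1.1 c := rfl

/-- the relation at level `m`. -/
abbrev ZZ (g : GQ) (h : CC N S) : Prop := Z (actA N m) (thL N m) (kk m) g h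

theorem ZZ_frob {ℓ : ℕ} (hℓ : ℓ.Prime) (hℓN : ¬ ℓ ∣ N) (hℓm : ¬ ℓ ∣ m) (hℓS : ℓ ∉ S)
    (A : ValuationSubring Qb) (hA : A.LiesOverPrime ℓ) (σ : GQ) (hσ : A.IsFrobeniusAt σ ℓ) :
    ZZ N m S σ (genCC hℓ hℓN hℓS) := by
  intro τ c
  have h1 := thetaM_frob N m hℓ hℓN hℓm A hA σ hσ (redL N m c) τ
  have h2 := congrArg (actA N m σ⁻¹) h1
  have hc : ∀ x, actA N m σ⁻¹ (actG N m σ x) = x := fun x => by
    rw [← actA_apply, ← actA_mul, inv_mul_cancel, actA_one]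
  rw [map_add, map_sub, map_zero, map_nsmul, hc, hc, TH_redL N m hℓ hℓN] at h2
  have hk : kk m σ ≡ ℓ [MOD m] :=
    kk_modEq m fun ζ hζ => Fermat.Agent.S31.frobenius_apply_root A hA hℓ hℓm hσ ζ hζ
  rw [nsmul_congr m hk]
  have h3 := sub_eq_zero.mp ((sub_add_eq_add_sub _ _ _).symm.trans h2)
  exact h3

end Fermat.Agent.S30.Geo
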