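import Mathlib
import Fermat.Agent.S30.GeoA

set_option autoImplicit false
set_option linter.unusedSectionVars false
set_option linter.style.haveILetI false
set_option synthInstance.maxHeartbeats 400000

/-! # S30 [GEO], concrete half, one level: finite level, existence, change of level, inertia -/

namespace Fermat.Agent.S30.Geo

open CongruenceSubgroup ModularCurve Fermat.Agent.S24 Fermat.Agent.S29 Fermat.Agent.S29.Glue
  Fermat.Agent.S31.HC Fermat.Agent.S30.PsB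

local notation "Qb" => AlgebraicClosure ℚ
local notation "GQ" => (AlgebraicClosure ℚ ≃ₐ[ℚ] AlgebraicClosure ℚ)

variable (N m : ℕ) [NeZero N] [NeZero m]

theorem thL_level : ∃ L : IntermediateField ℚ Qb, FiniteDimensional ℚ L ∧
    ∀ σ : GQ, (∀ x ∈ L, σ x = x) →
      (∀ (τ : GQ) (c : Lam N), actA N m σ (actA N m τ (thL N m c)) = actA N m τ (thL N m c)) ∧
        ∀ ζ : Qb, ζ ^ m = 1 → σ ζ = ζ := by
  obtain ⟨s, hs⟩ := (Module.Finite.fg_top : (⊤ : Submodule ℤ (Lam N)).FG)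
  choose Lc hLc1 hLc2 using fun c : Lam N => thetaM_level N m (redL N m c)
  obtain ⟨ζ0, h0⟩ := HasEnoughRootsOfUnity.exists_primitiveRoot Qb m
  have hint : IsIntegral ℚ ζ0 := (h0.isIntegral (Nat.pos_of_ne_zero (NeZero.ne m))).tower_top
  let L0 : IntermediateField ℚ Qb := (⨆ c ∈ s, Lc c) ⊔ IntermediateField.adjoin ℚ {ζ0}
  haveI h1 : FiniteDimensional ℚ ↥(⨆ c ∈ s, Lc c) :=
    IntermediateField.finiteDimensional_iSup_of_finset' (fun c _ => hLc1 c)
  haveI h2 : FiniteDimensional ℚ ↥(IntermediateField.adjoin ℚ {ζ0}) :=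
    IntermediateField.adjoin.finiteDimensional hint
  haveI h3 : FiniteDimensional ℚ L0 := IntermediateField.finiteDimensional_sup _ _
  have hmem : ∀ (τ : GQ) (x : Qb), x ∈ L0 → τ x ∈ IntermediateField.normalClosure ℚ L0 Qb :=
    fun τ x hx => ((τ : Qb →ₐ[ℚ] Qb).comp L0.val).fieldRange_le_normalClosure ⟨⟨x, hx⟩, rfl⟩
  refine ⟨IntermediateField.normalClosure ℚ L0 Qb, inferInstance, fun σ hσ =>
    ⟨fun τ c => ?_, fun ζ hζ => ?_⟩⟩
  · have hfix : ∀ x ∈ L0, (τ⁻¹ * σ * τ) x = x := by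
      intro x hx
      rw [AlgEquiv.mul_apply, AlgEquiv.mul_apply, hσ _ (hmem τ x hx)]
      exact τ.symm_apply_apply x
    have hall : ∀ c : Lam N, actA N m (τ⁻¹ * σ * τ) (thL N m c) = thL N m c := by
      intro c
      have hc : c ∈ Submodule.span ℤ (s : Set (Lam N)) := by rw [hs]; trivial
      induction hc using Submodule.span_induction with
      | mem c hc =>
        refine hLc2 c _ fun x hx => hfix x ?_
        have hle : Lc c ≤ L0 := le_trans (le_iSup₂_of_le c hc le_rfl) le_sup_left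
        exact hle hx
      | zero => rw [map_zero, map_zero]
      | add c c' _ _ h h' => rw [map_add, map_add, h, h']
      | smul a c _ h => rw [map_zsmul, map_zsmul, h]
    have e : σ * τ = τ * (τ⁻¹ * σ * τ) := by group
    rw [← actA_mul, e, actA_mul, hall]
  · obtain ⟨j, -, rfl⟩ := h0.eq_pow_of_pow_eq_one hζ
    have hz : ζ0 ∈ L0 :=
      (le_sup_right : IntermediateField.adjoin ℚ {ζ0} ≤ L0)
        (IntermediateField.mem_adjoin_simple_self ℚ ζ0)
    have := hσ _ (hmem 1 ζ0 hz)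
    rw [map_pow]
    congr 1

variable (S : Finset ℕ)

theorem exists_bad : ∃ D : ℕ, D ≠ 0 ∧ ∀ ℓ : ℕ, ℓ.Prime → ¬ ℓ ∣ D →
    ¬ ℓ ∣ N ∧ ¬ ℓ ∣ m ∧ ℓ ∉ (↑S : Set ℕ) := by
  refine ⟨N * m * ∏ s ∈ S, (if s = 0 then 1 else s), ?_, fun ℓ hℓ hD => ⟨?_, ?_, ?_⟩⟩
  · refine mul_ne_zero (mul_ne_zero (NeZero.ne N) (NeZero.ne m)) ?_
    rw [Finset.prod_ne_zero_iff]
    intro s _
    split_ifs with h
    · exact one_ne_zero
    · exact h
  · exact fun h => hD (Dvd.dvd.mul_right (Dvd.dvd.mul_right h _) _)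
  · exact fun h => hD (Dvd.dvd.mul_right (Dvd.dvd.mul_left h _) _)
  · intro h
    apply hD
    apply Dvd.dvd.mul_left
    have := Finset.dvd_prod_of_mem (fun s => if s = 0 then 1 else s) (Finset.mem_coe.mp h)
    simpa [hℓ.ne_zero] using this

theorem ZZ_exists (g : GQ) : ∃ h : CC N (↑S : Set ℕ), ZZ N m (↑S : Set ℕ) g h := by
  obtain ⟨L, hL, hlev⟩ := thL_level N m
  obtain ⟨D, hD0, hD⟩ := exists_bad N m S
  obtain ⟨ℓ, hℓ, hℓD, A, hA, τ0, hτ0, i, hi⟩ := Dens.densStmt L g D hD0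
  obtain ⟨hℓN, hℓm, hℓS⟩ := hD ℓ hℓ hℓD
  obtain ⟨b, hb⟩ := Z_pow (actA_mul N m) (actA_one N m) (kk_one m) (kk_mul m)
    (ZZ_frob N m (↑S : Set ℕ) hℓ hℓN hℓm hℓS A hA τ0 hτ0) i
  have hη : ∀ x ∈ L, ((τ0 ^ i)⁻¹ * g) x = x := by
    intro x hx
    rw [AlgEquiv.mul_apply, ← hi x hx]
    exact (τ0 ^ i).symm_apply_apply x
  obtain ⟨h1, h2⟩ := hlev _ hη
  refine ⟨b, ?_⟩
  have := Z_mul_triv (actA_mul N m) (actA_one N m) (kk_mul m) h1 (kk_triv m h2) hb
  rwa [mul_inv_cancel_left] at this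

theorem ZZ_dvd {m' : ℕ} [NeZero m'] (hd : m' ∣ m) (T : Set ℕ) {g : GQ} {h : CC N T}
    (H : ZZ N m T g h) : ZZ N m' T g h := by
  intro τ c
  have e := congrArg (trX hd) (H τ c)
  have e1 : ∀ c : Lam N, trX hd (thL N m c) = thL N m' c := by
    intro c
    rw [thL_apply, trX_thetaM, thL_apply]
    congr 1
    apply Subtype.ext
    refine DFunLike.ext _ _ fun γ => ?_
    rw [coe_redHH, Th.redHom_apply, redL_apply, redL_apply, map_intCast]
  have e2 : ∀ (σ : GQ) (x : Xq (FN N)ˣ m), trX hd (actA N m σ x) = actA N m' σ (trX hd x) :=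
    fun σ x => trX_actG N hd σ x
  rw [map_add, map_nsmul, e2, e2, e2, e2, e2, e1, e1, kk_dvd m hd] at e
  exact e

theorem inertia_triv {q : ℕ} (hq : q.Prime) (hqN : ¬ q ∣ N) (hqm : ¬ q ∣ m)
    (A : ValuationSubring Qb) (hA : A.LiesOverPrime q) (σ : GQ) (hσ : σ ∈ A.inertiaSubgroupIn ℚ) :
    (∀ (τ : GQ) (c : Lam N), actA N m σ (actA N m τ (thL N m c)) = actA N m τ (thL N m c)) ∧
      ∀ ζ : Qb, ζ ^ m = 1 → σ ζ = ζ :=
  ⟨fun τ c => thetaM_inertia N m hq hqN hqm A hA σ hσ (redL N m c) τ,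
    fun ζ hζ => Fermat.Agent.S31.inertia_apply_root A hA hq hqm hσ ζ hζ⟩

end Fermat.Agent.S30.Geo
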