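import Mathlib
import Fermat.Prelude.Def_GaloisRep_Adic

set_option autoImplicit false

/-! # S30: two-dimensional pseudo-characters of `G_ℚ` with a complex conjugation (interface) -/

namespace Fermat.Agent.S30

/-- the absolute Galois group of `ℚ`. -/
abbrev GQ : Type := AlgebraicClosure ℚ ≃ₐ[ℚ] AlgebraicClosure ℚ

/-- a continuous two-dimensional pseudo-character `t` with determinant `δ`, together with an
involution `c` of trace `0`. -/
structure PseudoData (O : Type) [CommRing O] [IsLocalRing O] where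
  t : GQ → O
  δ : GQ →* Oˣ
  t_one : t 1 = 2
  t_comm : ∀ g h : GQ, t (g * h) = t (h * g)
  t_mul : ∀ g h : GQ, t (g * h) + (δ h : O) * t (g * h⁻¹) = t g * t h
  c : GQ
  c_sq : c * c = 1
  t_c : t c = 0
  cont : ∀ n : ℕ, ∃ L : IntermediateField ℚ (AlgebraicClosure ℚ), FiniteDimensional ℚ L ∧
    ∀ σ : GQ, (∀ x ∈ L, σ x = x) → ∀ g : GQ, t (g * σ) - t g ∈ IsLocalRing.maximalIdeal O ^ n

end Fermat.Agent.S30
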