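import Mathlib
import Fermat.Agent.S30.GeoB
import Fermat.Agent.S30.Adic
import Fermat.Agent.S30.PseudoDefs

set_option autoImplicit false
set_option linter.unusedSectionVars false
set_option linter.style.haveILetI false
set_option synthInstance.maxHeartbeats 400000

/-! # S30 [GEO]: the pseudo-character attached to a point of the Hecke algebra -/

namespace Fermat.Agent.S30.Geo

open CongruenceSubgroup ModularCurve CuspForm Fermat.Agent.S24 Fermat.Agent.S29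
  Fermat.Agent.S29.Glue Fermat.Agent.S31.HC Fermat.Agent.S30.PsB IsLocalRing

local notation "Qb" => AlgebraicClosure ℚ
local notation "GQ'" => (AlgebraicClosure ℚ ≃ₐ[ℚ] AlgebraicClosure ℚ)

variable (N : ℕ) [NeZero N] (S : Finset ℕ) (p : ℕ) [hp : Fact p.Prime]
  {O : Type} [CommRing O] [IsDomain O] [IsDiscreteValuationRing O]
  [IsAdicComplete (maximalIdeal O) O] [CharZero O]

instance neZero_pow (n : ℕ) : NeZero (p ^ n) := ⟨pow_ne_zero n hp.out.ne_zero⟩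

/-- the tower. -/
noncomputable def tow (hpO : (p : O) ∈ maximalIdeal O)
    (χ : heckeAlgebra N 2 (↑S : Set ℕ) →+* O) (δ : GQ' →* Oˣ)
    (hδ : ∀ (n k : ℕ) (σ : GQ') (ζ : Qb), IsPrimitiveRoot ζ (p ^ n) → σ ζ = ζ ^ k →
      (δ σ : O) - (k : O) ∈ Ip O p n)
    (a : ℕ) (ha : ∀ (n : ℕ) (x : CC N (↑S : Set ℕ)),
      (∀ c : Lam N, ∃ d : Lam N, x.1.1 c = ((p : ℤ) ^ (n + a)) • d) →
      ∃ w : CC N (↑S : Set ℕ), x = ((p : ℤ) ^ n) • w) :
    Tow GQ' (CC N (↑S : Set ℕ)) (Lam N) O where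
  X n := Xq (FN N)ˣ (p ^ (n + a))
  act n := actA N (p ^ (n + a))
  act_mul n := actA_mul N (p ^ (n + a))
  act_one n := actA_one N (p ^ (n + a))
  Θ n := thL N (p ^ (n + a))
  k n := kk (p ^ (n + a))
  k_one n := kk_one (p ^ (n + a))
  k_mul n := kk_mul (p ^ (n + a))
  I n := Ip O p n
  I_zero x hx := eq_zero_of_mem_all hpO hx
  I_lim f hf := exists_limit hpO f hf
  φ := χ.comp (prT N (↑S : Set ℕ))
  δ := δ
  δ_k n g := by
    obtain ⟨ζ0, h0⟩ := HasEnoughRootsOfUnity.exists_primitiveRoot Qb (p ^ (n + a))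
    exact Ip_antitone p (Nat.le_add_right n a)
      (hδ (n + a) _ g ζ0 h0 (kk_spec (p ^ (n + a)) g ζ0 h0.pow_eq_one))
  ker n x hx := by
    obtain ⟨w, rfl⟩ := ha n x (fun c => by
      obtain ⟨d, hd⟩ := thL_eq_zero N (p ^ (n + a)) (hx c)
      refine ⟨d, ?_⟩
      rw [← smul_CC, hd]
      push_cast
      rfl)
    rw [map_zsmul, zsmul_eq_mul, mem_Ip]
    exact ⟨_, by push_cast; rfl⟩
  ex n g := ZZ_exists N (p ^ (n + a)) S g
  compat n g h H := ZZ_dvd N (p ^ (n + 1 + a)) (pow_dvd_pow p (by omega)) _ H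

theorem not_dvd_pow {ℓ : ℕ} (hℓ : ℓ.Prime) (hne : ℓ ≠ p) (n : ℕ) : ¬ ℓ ∣ p ^ n := fun h =>
  hne ((Nat.prime_dvd_prime_iff_eq hℓ hp.out).1 (hℓ.dvd_of_dvd_pow h))

/-- **[GEO]**: the pseudo-character attached to `χ`. -/
theorem exists_pseudo (hpS : p ∈ S) (hpO : (p : O) ∈ maximalIdeal O)
    (χ : heckeAlgebra N 2 (↑S : Set ℕ) →+* O) (δ : GQ' →* Oˣ)
    (hδ : ∀ (n k : ℕ) (σ : GQ') (ζ : Qb), IsPrimitiveRoot ζ (p ^ n) → σ ζ = ζ ^ k →
      (δ σ : O) - (k : O) ∈ Ip O p n)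
    (c0 : GQ') (hc0 : c0 * c0 = 1)
    (hc0' : ∀ (m : ℕ) (ζ : Qb), m ≠ 0 → ζ ^ m = 1 → c0 ζ = ζ⁻¹) :
    ∃ P : PseudoData O, P.δ = δ ∧ P.c = c0 ∧
      (∀ (ℓ : ℕ) (hℓ : ℓ.Prime) (hℓN : ¬ ℓ ∣ N) (hℓS : ℓ ∉ (↑S : Set ℕ))
        (A : ValuationSubring Qb), A.LiesOverPrime ℓ → ∀ σ : GQ', A.IsFrobeniusAt σ ℓ →
          P.t σ = χ (heckeAlgebra.T hℓ hℓN hℓS)) ∧
      (∀ q : ℕ, q.Prime → ¬ q ∣ N → q ≠ p → ∀ A : ValuationSubring Qb, A.LiesOverPrime q →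
        ∀ i ∈ A.inertiaSubgroupIn ℚ, ∀ g : GQ', P.t (g * i) = P.t g) := by
  obtain ⟨a, ha⟩ := main_gen N (↑S : Set ℕ) p hp.out
  obtain ⟨t, ht⟩ := (tow N S p hpO χ δ hδ a ha).exists_t
  refine ⟨{ t := t, δ := δ, t_one := t_one ht, t_comm := t_comm ht, t_mul := t_mul ht, c := c0,
            c_sq := hc0,
            t_c := t_invol ht hc0 (fun n x =>
              kk_inv (p ^ (n + a)) (fun ζ hζ => hc0' _ ζ (NeZero.ne _) hζ) x),
            cont := ?_ }, rfl, rfl, ?_, ?_⟩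
  · intro n
    obtain ⟨L, hL, hlev⟩ := thL_level N (p ^ (n + a))
    exact ⟨L, hL, fun σ hσ g => Ip_le_pow hpO n
      (t_triv_level ht (n := n) (hlev σ hσ).1 (kk_triv _ (hlev σ hσ).2) g)⟩
  · intro ℓ hℓ hℓN hℓS A hA σ hσ
    have hne : ℓ ≠ p := fun h => hℓS (h ▸ Finset.mem_coe.mpr hpS)
    exact t_eq ht (h := genCC hℓ hℓN hℓS) (fun n =>
      ZZ_frob N (p ^ (n + a)) (↑S : Set ℕ) hℓ hℓN (not_dvd_pow p hℓ hne _) hℓS A hA σ hσ)
  · intro q hq hqN hqp A hA i hi g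
    exact t_triv ht
      (fun n => (inertia_triv N (p ^ (n + a)) hq hqN (not_dvd_pow p hq hqp _) A hA i hi).1)
      (fun n => kk_triv _
        (inertia_triv N (p ^ (n + a)) hq hqN (not_dvd_pow p hq hqp _) A hA i hi).2) g

end Fermat.Agent.S30.Geo
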