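import Mathlib

set_option autoImplicit false
set_option linter.style.haveILetI false
set_option linter.unusedSectionVars false

/-! # S30 [LAT], part A: a stable lattice for a matrix representation with bounded denominators -/

namespace Fermat.Agent.S30.Lat

open Polynomial Module

variable {O : Type} [CommRing O] [IsDomain O] [IsPrincipalIdealRing O]
variable {K : Type} [Field K] [Algebra O K] [IsFractionRing O K]
variable {G : Type} [Group G] (r : G →* Matrix (Fin 2) (Fin 2) K)

/-- the `O`-span of the columns of all the `r g`. -/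
def lat : Submodule O (Fin 2 → K) :=
  Submodule.span O {v | ∃ (g : G) (i : Fin 2), v = (r g).mulVec (Pi.single i 1)}

theorem mulVec_mem_lat (g : G) {v : Fin 2 → K} (hv : v ∈ lat (O := O) r) :
    (r g).mulVec v ∈ lat (O := O) r := by
  induction hv using Submodule.span_induction with
  | mem x hx =>
    obtain ⟨h, i, rfl⟩ := hx
    refine Submodule.subset_span ⟨g * h, i, ?_⟩
    rw [map_mul, Matrix.mulVec_mulVec]
  | zero => rw [Matrix.mulVec_zero]; exact Submodule.zero_mem _
  | add x y _ _ hx hy => rw [Matrix.mulVec_add]; exact Submodule.add_mem _ hx hy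
  | smul c x _ hx =>
    have : (r g).mulVec (c • x) = c • (r g).mulVec x := by
      rw [← algebraMap_smul K c x, Matrix.mulVec_smul, algebraMap_smul]
    rw [this]; exact Submodule.smul_mem _ _ hx

theorem single_mem_lat (i : Fin 2) : (Pi.single i 1 : Fin 2 → K) ∈ lat (O := O) r :=
  Submodule.subset_span ⟨1, i, by rw [map_one, Matrix.one_mulVec]⟩

theorem int_mem_lat (w : Fin 2 → O) : (fun i => algebraMap O K (w i)) ∈ lat (O := O) r := by
  have : (fun i => algebraMap O K (w i)) = ∑ i, w i • (Pi.single i 1 : Fin 2 → K) := by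
    ext j
    simp [Pi.single_apply, Algebra.smul_def]
  rw [this]
  exact Submodule.sum_mem _ fun i _ => Submodule.smul_mem _ _ (single_mem_lat r i)

variable {r}

theorem exists_int_of_mem_lat {d : O}
    (hbd : ∀ g i j, ∃ y : O, algebraMap O K y = algebraMap O K d * r g i j)
    {v : Fin 2 → K} (hv : v ∈ lat (O := O) r) :
    ∃ w : Fin 2 → O, ∀ i, algebraMap O K (w i) = algebraMap O K d * v i := by
  induction hv using Submodule.span_induction with
  | mem x hx =>
    obtain ⟨h, i, rfl⟩ := hx
    choose y hy using hbd h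
    refine ⟨fun j => y j i, fun j => ?_⟩
    rw [hy, Matrix.mulVec_single_one]
    rfl
  | zero => exact ⟨0, fun i => by simp⟩
  | add x y _ _ hx hy =>
    obtain ⟨w, hw⟩ := hx
    obtain ⟨w', hw'⟩ := hy
    exact ⟨w + w', fun i => by rw [Pi.add_apply, map_add, hw, hw', Pi.add_apply, mul_add]⟩
  | smul c x _ hx =>
    obtain ⟨w, hw⟩ := hx
    exact ⟨c • w, fun i => by
      rw [Pi.smul_apply, smul_eq_mul, map_mul, hw, Pi.smul_apply, Algebra.smul_def]; ring⟩

theorem lat_fg {d : O} (hd : d ≠ 0)
    (hbd : ∀ g i j, ∃ y : O, algebraMap O K y = algebraMap O K d * r g i j) :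
    (lat (O := O) r).FG := by
  let ψ : (Fin 2 → O) →ₗ[O] (Fin 2 → K) := (Algebra.linearMap O K).compLeft (Fin 2)
  let μ : (Fin 2 → K) →ₗ[O] (Fin 2 → K) := LinearMap.lsmul O (Fin 2 → K) d
  have hμ : Function.Injective μ := by
    intro x y hxy
    have hd' : algebraMap O K d ≠ 0 := by
      rw [Ne, map_eq_zero_iff _ (IsFractionRing.injective O K)]; exact hd
    ext i
    have := congrFun hxy i
    simp only [μ, LinearMap.lsmul_apply, Pi.smul_apply, Algebra.smul_def] at this
    exact mul_left_cancel₀ hd' this
  apply Submodule.fg_of_fg_map_injective μ hμ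
  have hle : (lat (O := O) r).map μ ≤ LinearMap.range ψ := by
    rintro _ ⟨v, hv, rfl⟩
    obtain ⟨w, hw⟩ := exists_int_of_mem_lat hbd hv
    refine ⟨w, ?_⟩
    ext i
    simp only [ψ, μ, LinearMap.compLeft_apply, Function.comp, Algebra.linearMap_apply,
      LinearMap.lsmul_apply, Pi.smul_apply, Algebra.smul_def]
    exact hw i
  rw [← Submodule.map_comap_eq_of_le hle]
  exact (IsNoetherian.noetherian _).map ψ

theorem isLattice_lat {d : O} (hd : d ≠ 0)
    (hbd : ∀ g i j, ∃ y : O, algebraMap O K y = algebraMap O K d * r g i j) :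
    Submodule.IsLattice K (lat (O := O) r) where
  fg := lat_fg hd hbd
  span_eq_top := by
    rw [eq_top_iff, ← (Pi.basisFun K (Fin 2)).span_eq]
    apply Submodule.span_mono
    rintro _ ⟨i, rfl⟩
    rw [Pi.basisFun_apply]
    exact single_mem_lat r i

variable (r)

/-- the action on the lattice. -/
noncomputable def latRep : G →* Module.End O (lat (O := O) r) where
  toFun g :=
    { toFun := fun v => ⟨(r g).mulVec v.1, mulVec_mem_lat r g v.2⟩
      map_add' := fun x y => Subtype.ext (by simp [Matrix.mulVec_add])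
      map_smul' := fun c x => Subtype.ext (by
        show (r g).mulVec (c • x.1) = c • (r g).mulVec x.1
        rw [← algebraMap_smul K c x.1, Matrix.mulVec_smul, algebraMap_smul]) }
  map_one' := by
    ext x : 2
    show (r 1).mulVec x.1 = x.1
    rw [map_one, Matrix.one_mulVec]
  map_mul' g h := by
    ext x : 2
    show (r (g * h)).mulVec x.1 = (r g).mulVec ((r h).mulVec x.1)
    rw [map_mul, Matrix.mulVec_mulVec]

theorem coe_latRep (g : G) (v : lat (O := O) r) :
    ((latRep r g v : lat (O := O) r) : Fin 2 → K) = (r g).mulVec v.1 := rfl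

variable {r}

theorem charpoly_latRep {d : O} (hd : d ≠ 0)
    (hbd : ∀ g i j, ∃ y : O, algebraMap O K y = algebraMap O K d * r g i j) (g : G) :
    haveI := isLattice_lat hd hbd
    (LinearMap.charpoly (latRep (O := O) r g)).map (algebraMap O K) = (r g).charpoly := by
  haveI := isLattice_lat hd hbd
  let b := Module.Free.chooseBasis O (lat (O := O) r)
  let bK := b.extendOfIsLattice K
  have hrepr : ∀ (x : lat (O := O) r) i, bK.repr x.1 i = algebraMap O K (b.repr x i) := by
    intro x i
    have h1 : x.1 = ∑ j, algebraMap O K (b.repr x j) • bK j := by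
      conv_lhs => rw [← b.sum_repr x]
      rw [Submodule.coe_sum]
      refine Finset.sum_congr rfl fun j _ => ?_
      rw [Basis.extendOfIsLattice_apply, algebraMap_smul]
      rfl
    rw [h1, bK.repr_sum_self]
  have hmat : (LinearMap.toMatrix b b (latRep (O := O) r g)).map (algebraMap O K) =
      LinearMap.toMatrix bK bK (Matrix.mulVecLin (r g)) := by
    ext i j
    rw [Matrix.map_apply, LinearMap.toMatrix_apply, LinearMap.toMatrix_apply, ← hrepr,
      coe_latRep, Basis.extendOfIsLattice_apply, Matrix.mulVecLin_apply]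
  rw [← LinearMap.charpoly_toMatrix _ b, ← Matrix.charpoly_map, hmat, LinearMap.charpoly_toMatrix,
    ← LinearMap.charpoly_toMatrix _ (Pi.basisFun K (Fin 2))]
  congr 1
  exact LinearMap.toMatrix'_toLin' (r g)

theorem finrank_lat {d : O} (hd : d ≠ 0)
    (hbd : ∀ g i j, ∃ y : O, algebraMap O K y = algebraMap O K d * r g i j) :
    Module.finrank O (lat (O := O) r) = 2 := by
  haveI := isLattice_lat hd hbd
  rw [Submodule.IsLattice.finrank_of_pi K]
  rfl

end Fermat.Agent.S30.Lat
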