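import Mathlib
import Fermat.Prelude.Def_GaloisRep_Adic
import Fermat.Agent.S30.LatA

set_option autoImplicit false
set_option linter.style.haveILetI false
set_option linter.unusedSectionVars false

/-! # S30 [LAT], part B: from a matrix representation with bounded denominators to `GaloisRepAdic` -/

namespace Fermat.Agent.S30.Lat

open Polynomial Module

local notation "Qb" => AlgebraicClosure ℚ
local notation "GQ" => (AlgebraicClosure ℚ ≃ₐ[ℚ] AlgebraicClosure ℚ)

variable {O : Type} [CommRing O] [IsDomain O] [IsDiscreteValuationRing O]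

theorem exists_rep_of_matrix (a : GQ → O) (δ : GQ → O)
    (r : GQ →* Matrix (Fin 2) (Fin 2) (FractionRing O))
    (htr : ∀ g, (r g).trace = algebraMap O (FractionRing O) (a g))
    (hdet : ∀ g, (r g).det = algebraMap O (FractionRing O) (δ g))
    (d : O) (hd : d ≠ 0)
    (hbd : ∀ g i j, ∃ y : O, algebraMap O (FractionRing O) y =
      algebraMap O (FractionRing O) d * r g i j)
    (e : O) (he : e ≠ 0)
    (hsmall : ∀ (σ : GQ) (I : Ideal O), (∀ h, a (σ * h) - a h ∈ I) → ∀ i j, ∃ y ∈ I,
      algebraMap O (FractionRing O) y = algebraMap O (FractionRing O) e * (r σ - 1) i j)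
    (hcont : ∀ n : ℕ, ∃ L : IntermediateField ℚ Qb, FiniteDimensional ℚ L ∧
      ∀ σ : GQ, (∀ x ∈ L, σ x = x) → ∀ h, a (σ * h) - a h ∈ IsLocalRing.maximalIdeal O ^ n) :
    ∃ R : GaloisRepAdic O,
      (∀ g, LinearMap.charpoly (R.ρ g) = X ^ 2 - C (a g) * X + C (δ g)) ∧
      ∀ σ, (∀ h, a (σ * h) = a h) → R.ρ σ = 1 := by
  haveI := isLattice_lat hd hbd
  have hinj := IsFractionRing.injective O (FractionRing O)
  have he' : algebraMap O (FractionRing O) e ≠ 0 := by
    rw [Ne, map_eq_zero_iff _ hinj]; exact he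
  have hcontR : GaloisActionIsAdicContinuous O (latRep (O := O) r) := by
    intro n
    have hI : Ideal.span {e * d} * IsLocalRing.maximalIdeal O ^ n ≠ ⊥ := by
      apply mul_ne_zero
      · rw [Ne, Ideal.zero_eq_bot, Ideal.span_singleton_eq_bot]; exact mul_ne_zero he hd
      · exact pow_ne_zero _ (IsDiscreteValuationRing.not_a_field O)
    obtain ⟨k, hk⟩ := exists_maximalIdeal_pow_eq_of_principal O
      (IsPrincipalIdealRing.principal _) _ hI
    obtain ⟨L, hL, hLσ⟩ := hcont k
    refine ⟨L, hL, fun σ hσ v => ?_⟩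
    have h1 := hsmall σ _ (fun h => hk ▸ hLσ σ hσ h)
    have h2 : ∀ i j, ∃ z ∈ IsLocalRing.maximalIdeal O ^ n,
        (r σ - 1) i j = algebraMap O (FractionRing O) (d * z) := by
      intro i j
      obtain ⟨y, hy, hyr⟩ := h1 i j
      obtain ⟨z, hz, rfl⟩ := Ideal.mem_span_singleton_mul.mp hy
      refine ⟨z, hz, ?_⟩
      apply mul_left_cancel₀ he'
      rw [← hyr, ← map_mul, mul_assoc]
    choose z hz hzr using h2
    obtain ⟨w, hw⟩ := exists_int_of_mem_lat hbd v.2
    have h3 : latRep (O := O) r σ v - v = ∑ i, (∑ j, z i j * w j) •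
        (⟨Pi.single i 1, single_mem_lat r i⟩ : lat (O := O) r) := by
      apply Subtype.ext
      rw [Submodule.coe_sub, coe_latRep, Submodule.coe_sum]
      have h4 : (r σ).mulVec v.1 - v.1 = (r σ - 1).mulVec v.1 := by
        rw [Matrix.sub_mulVec, Matrix.one_mulVec]
      rw [h4]
      ext i
      rw [Matrix.mulVec, dotProduct, Finset.sum_apply]
      have h5 : ∀ i' : Fin 2, (((∑ j, z i' j * w j) •
          (⟨Pi.single i' 1, single_mem_lat r i'⟩ : lat (O := O) r) : lat (O := O) r) :
            Fin 2 → FractionRing O) i =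
          if i = i' then algebraMap O (FractionRing O) (∑ j, z i' j * w j) else 0 := by
        intro i'
        rw [Submodule.coe_smul, Pi.smul_apply]
        show (∑ j, z i' j * w j) • (Pi.single i' 1 : Fin 2 → FractionRing O) i = _
        rw [Pi.single_apply, Algebra.smul_def]
        split_ifs <;> simp
      rw [Finset.sum_congr rfl (fun i' _ => h5 i'), Finset.sum_ite_eq Finset.univ i,
        if_pos (Finset.mem_univ i), map_sum]
      refine Finset.sum_congr rfl fun j _ => ?_
      rw [hzr, map_mul, map_mul, hw]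
      ring
    rw [h3]
    refine Submodule.sum_mem _ fun i _ => Submodule.smul_mem_smul ?_ Submodule.mem_top
    exact Ideal.sum_mem _ fun j _ => Ideal.mul_mem_right _ _ (hz i j)
  refine ⟨{ V := lat (O := O) r
            finrank_eq := finrank_lat hd hbd
            ρ := latRep (O := O) r
            isAdicContinuous := hcontR }, ?_, ?_⟩
  · intro g
    apply Polynomial.map_injective _ hinj
    show (LinearMap.charpoly (latRep (O := O) r g)).map _ = _
    rw [charpoly_latRep hd hbd g, Matrix.charpoly_fin_two, htr, hdet]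
    simp
  · intro σ hσ
    have h1 := hsmall σ ⊥ (fun h => by rw [hσ h, sub_self]; exact Submodule.zero_mem _)
    have h2 : r σ = 1 := by
      rw [← sub_eq_zero]
      ext i j
      obtain ⟨y, hy, hyr⟩ := h1 i j
      rw [Ideal.mem_bot] at hy
      rw [hy, map_zero] at hyr
      exact (mul_eq_zero.mp hyr.symm).resolve_left he'
    show latRep (O := O) r σ = 1
    ext x : 2
    rw [coe_latRep, h2, Matrix.one_mulVec]
    rfl

end Fermat.Agent.S30.Lat
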