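import Mathlib
import Fermat.Prelude.Def_GaloisRep_Adic
import Fermat.Agent.S30.LatB

set_option autoImplicit false
set_option linter.style.haveILetI false
set_option linter.unusedSectionVars false

/-! # S30 [LAT], part C: the entries of a representation with `ρ c0 = diag(1,-1)` -/

namespace Fermat.Agent.S30.Lat

open Polynomial Module

variable {O : Type} [CommRing O] [IsDomain O]
variable {K : Type} [Field K] [Algebra O K] [IsFractionRing O K]
variable {G : Type} [Group G] (a : G → O) (c0 : G)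

/-- `2 A(g)` -/
def ap (g : G) : O := a g + a (g * c0)
/-- `2 D(g)` -/
def am (g : G) : O := a g - a (g * c0)
/-- `4 B(g) C(h)` -/
def bc (g h : G) : O := 2 * ap a c0 (g * h) - ap a c0 g * ap a c0 h
/-- `4 C(g) B(h)` -/
def cb (g h : G) : O := 2 * am a c0 (g * h) - am a c0 g * am a c0 h

variable {a c0}
variable {ρ : G →* Matrix (Fin 2) (Fin 2) K}
  (htr : ∀ g, (ρ g).trace = algebraMap O K (a g)) (hc0 : ρ c0 = !![1, 0; 0, -1])

include htr hc0

theorem map_ap (g : G) : algebraMap O K (ap a c0 g) = 2 * ρ g 0 0 := by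
  have h1 := htr g
  have h2 := htr (g * c0)
  rw [map_mul, hc0, Matrix.trace_fin_two] at h2
  rw [Matrix.trace_fin_two] at h1
  simp only [Matrix.mul_apply, Fin.sum_univ_two, Matrix.of_apply, Matrix.cons_val_zero,
    Matrix.cons_val_one, Matrix.cons_val', Matrix.cons_val_fin_one] at h2
  rw [ap, map_add, ← h1, ← h2]
  ring

theorem map_am (g : G) : algebraMap O K (am a c0 g) = 2 * ρ g 1 1 := by
  have h1 := htr g
  have h2 := htr (g * c0)
  rw [map_mul, hc0, Matrix.trace_fin_two] at h2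
  rw [Matrix.trace_fin_two] at h1
  simp only [Matrix.mul_apply, Fin.sum_univ_two, Matrix.of_apply, Matrix.cons_val_zero,
    Matrix.cons_val_one, Matrix.cons_val', Matrix.cons_val_fin_one] at h2
  rw [am, map_sub, ← h1, ← h2]
  ring

theorem map_bc (g h : G) : algebraMap O K (bc a c0 g h) = 4 * (ρ g 0 1 * ρ h 1 0) := by
  have h1 : ρ (g * h) 0 0 = ρ g 0 0 * ρ h 0 0 + ρ g 0 1 * ρ h 1 0 := by
    rw [map_mul, Matrix.mul_apply, Fin.sum_univ_two]
  rw [bc, map_sub, map_mul, map_mul, map_ap htr hc0, map_ap htr hc0, map_ap htr hc0, h1, map_ofNat]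
  ring

theorem map_cb (g h : G) : algebraMap O K (cb a c0 g h) = 4 * (ρ g 1 0 * ρ h 0 1) := by
  have h1 : ρ (g * h) 1 1 = ρ g 1 0 * ρ h 0 1 + ρ g 1 1 * ρ h 1 1 := by
    rw [map_mul, Matrix.mul_apply, Fin.sum_univ_two]
  rw [cb, map_sub, map_mul, map_mul, map_am htr hc0, map_am htr hc0, map_am htr hc0, h1, map_ofNat]
  ring

theorem a_one : a 1 = 2 := by
  apply IsFractionRing.injective O K
  rw [← htr, map_one, Matrix.trace_one, map_ofNat]
  simp

theorem a_c0 : a c0 = 0 := by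
  apply IsFractionRing.injective O K
  rw [← htr, hc0, Matrix.trace_fin_two, map_zero]
  simp

section Small

variable {σ : G} {I : Ideal O} (hσ : ∀ h, a (σ * h) - a h ∈ I)

include hσ

theorem ap_sub_mem (h : G) : ap a c0 (σ * h) - ap a c0 h ∈ I := by
  have h1 := hσ h
  have h2 := hσ (h * c0)
  have : ap a c0 (σ * h) - ap a c0 h = (a (σ * h) - a h) + (a (σ * (h * c0)) - a (h * c0)) := by
    rw [ap, ap, mul_assoc]; ring
  rw [this]; exact I.add_mem h1 h2

theorem am_sub_mem (h : G) : am a c0 (σ * h) - am a c0 h ∈ I := by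
  have h1 := hσ h
  have h2 := hσ (h * c0)
  have : am a c0 (σ * h) - am a c0 h = (a (σ * h) - a h) - (a (σ * (h * c0)) - a (h * c0)) := by
    rw [am, am, mul_assoc]; ring
  rw [this]; exact I.sub_mem h1 h2

theorem ap_sub_two_mem : ap a c0 σ - 2 ∈ I := by
  have h1 := ap_sub_mem htr hc0 hσ 1
  have h2 : ap a c0 (1 : G) = 2 := by rw [ap, one_mul, a_one htr hc0, a_c0 htr hc0, add_zero]
  rwa [mul_one, h2] at h1

theorem am_sub_two_mem : am a c0 σ - 2 ∈ I := by
  have h1 := am_sub_mem htr hc0 hσ 1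
  have h2 : am a c0 (1 : G) = 2 := by rw [am, one_mul, a_one htr hc0, a_c0 htr hc0, sub_zero]
  rwa [mul_one, h2] at h1

theorem bc_mem (h : G) : bc a c0 σ h ∈ I := by
  have : bc a c0 σ h = 2 * (ap a c0 (σ * h) - ap a c0 h) - (ap a c0 σ - 2) * ap a c0 h := by
    rw [bc]; ring
  rw [this]
  exact I.sub_mem (I.mul_mem_left _ (ap_sub_mem htr hc0 hσ h))
    (I.mul_mem_right _ (ap_sub_two_mem htr hc0 hσ))

theorem cb_mem (h : G) : cb a c0 σ h ∈ I := by
  have : cb a c0 σ h = 2 * (am a c0 (σ * h) - am a c0 h) - (am a c0 σ - 2) * am a c0 h := by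
    rw [cb]; ring
  rw [this]
  exact I.sub_mem (I.mul_mem_left _ (am_sub_mem htr hc0 hσ h))
    (I.mul_mem_right _ (am_sub_two_mem htr hc0 hσ))

end Small

end Fermat.Agent.S30.Lat
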