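import Mathlib
import Fermat.Prelude.Def_GaloisRep_Adic
import Fermat.Agent.S30.LatC

set_option autoImplicit false
set_option linter.style.haveILetI false
set_option linter.unusedSectionVars false

/-! # S30 [LAT]: from a pseudo-character realised over the fraction field to `GaloisRepAdic` -/

namespace Fermat.Agent.S30.Lat

open Polynomial Module

local notation "Qb" => AlgebraicClosure ℚ
local notation "GQ" => (AlgebraicClosure ℚ ≃ₐ[ℚ] AlgebraicClosure ℚ)

section Conj

variable {K : Type} [Field K] {G : Type} [Group G]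

/-- the diagonal part, when one of the off-diagonal entries vanishes identically. -/
noncomputable def diagHom (ρ : G →* Matrix (Fin 2) (Fin 2) K)
    (h : ∀ g h, ρ g 0 1 * ρ h 1 0 = 0) (h' : ∀ g h, ρ g 1 0 * ρ h 0 1 = 0) :
    G →* Matrix (Fin 2) (Fin 2) K where
  toFun g := !![ρ g 0 0, 0; 0, ρ g 1 1]
  map_one' := by
    rw [map_one]
    ext i j
    fin_cases i <;> fin_cases j <;> simp
  map_mul' g g' := by
    have h1 : ρ (g * g') 0 0 = ρ g 0 0 * ρ g' 0 0 + ρ g 0 1 * ρ g' 1 0 := by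
      rw [map_mul, Matrix.mul_apply, Fin.sum_univ_two]
    have h2 : ρ (g * g') 1 1 = ρ g 1 0 * ρ g' 0 1 + ρ g 1 1 * ρ g' 1 1 := by
      rw [map_mul, Matrix.mul_apply, Fin.sum_univ_two]
    rw [h1, h2, h, h', Matrix.mul_fin_two]
    simp

/-- conjugation by `diag(γ,1)`. -/
noncomputable def conjHom (ρ : G →* Matrix (Fin 2) (Fin 2) K) (γ : K) (hγ : γ ≠ 0) :
    G →* Matrix (Fin 2) (Fin 2) K where
  toFun g := !![ρ g 0 0, γ * ρ g 0 1; γ⁻¹ * ρ g 1 0, ρ g 1 1]
  map_one' := by
    rw [map_one]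
    ext i j
    fin_cases i <;> fin_cases j <;> simp
  map_mul' g g' := by
    have h1 : ∀ i j, ρ (g * g') i j = ρ g i 0 * ρ g' 0 j + ρ g i 1 * ρ g' 1 j := by
      intro i j
      rw [map_mul, Matrix.mul_apply, Fin.sum_univ_two]
    rw [h1, h1, h1, h1, Matrix.mul_fin_two]
    congr 1
    ext i j
    fin_cases i <;> fin_cases j <;> simp <;> field_simp

end Conj

variable {O : Type} [CommRing O] [IsDomain O] [IsDiscreteValuationRing O] [CharZero O]

theorem exists_galoisRepAdic (a : GQ → O) (δ : GQ → O)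
    (ρ : GQ →* Matrix (Fin 2) (Fin 2) (FractionRing O))
    (htr : ∀ g, (ρ g).trace = algebraMap O (FractionRing O) (a g))
    (hdet : ∀ g, (ρ g).det = algebraMap O (FractionRing O) (δ g))
    (c0 : GQ) (hc0 : ρ c0 = !![1, 0; 0, -1])
    (hcont : ∀ n : ℕ, ∃ L : IntermediateField ℚ Qb, FiniteDimensional ℚ L ∧
      ∀ σ : GQ, (∀ x ∈ L, σ x = x) → ∀ h, a (σ * h) - a h ∈ IsLocalRing.maximalIdeal O ^ n) :
    ∃ R : GaloisRepAdic O,
      (∀ g, LinearMap.charpoly (R.ρ g) = X ^ 2 - C (a g) * X + C (δ g)) ∧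
      ∀ σ, (∀ h, a (σ * h) = a h) → R.ρ σ = 1 := by
  have hinj := IsFractionRing.injective O (FractionRing O)
  by_cases hcase : (∀ g, ρ g 0 1 = 0) ∨ (∀ g, ρ g 1 0 = 0)
  · -- reducible case
    have hz : ∀ g h, ρ g 0 1 * ρ h 1 0 = 0 := by
      intro g h
      rcases hcase with hB | hC
      · rw [hB, zero_mul]
      · rw [hC, mul_zero]
    have hz' : ∀ g h, ρ g 1 0 * ρ h 0 1 = 0 := fun g h => by rw [mul_comm]; exact hz h g
    have hsum : ∀ g, ρ g 0 0 + ρ g 1 1 = algebraMap O (FractionRing O) (a g) := fun g => by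
      rw [← htr, Matrix.trace_fin_two]
    have hprod : ∀ g, ρ g 0 0 * ρ g 1 1 = algebraMap O (FractionRing O) (δ g) := fun g => by
      rw [← hdet, Matrix.det_fin_two, hz, sub_zero]
    have hint : ∀ (g : GQ) (x y : FractionRing O), x + y = algebraMap O (FractionRing O) (a g) →
        x * y = algebraMap O (FractionRing O) (δ g) →
        ∃ z : O, algebraMap O (FractionRing O) z = x := by
      intro g x y hxy hxy'
      apply IsIntegrallyClosed.isIntegral_iff.mp
      refine ⟨X ^ 2 - C (a g) * X + C (δ g), ?_, ?_⟩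
      · have : (X ^ 2 - C (a g) * X + C (δ g) : O[X]) = X ^ 2 + (- C (a g) * X + C (δ g)) := by ring
        rw [this]
        apply Polynomial.monic_X_pow_add
        refine lt_of_le_of_lt (degree_add_le _ _) (max_lt ?_ ?_)
        · rw [← C_neg]
          exact lt_of_le_of_lt (degree_C_mul_X_le _) (by norm_num)
        · exact lt_of_le_of_lt degree_C_le (by norm_num)
      · simp only [eval₂_add, eval₂_sub, eval₂_mul, eval₂_pow, eval₂_X, eval₂_C]
        rw [← hxy, ← hxy']
        ring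
    refine exists_rep_of_matrix a δ (diagHom ρ hz hz') ?_ ?_ 1 one_ne_zero ?_ 2 two_ne_zero ?_ hcont
    · intro g
      show (!![ρ g 0 0, 0; 0, ρ g 1 1] : Matrix _ _ _).trace = _
      rw [Matrix.trace_fin_two, ← hsum]
      simp
    · intro g
      show (!![ρ g 0 0, 0; 0, ρ g 1 1] : Matrix _ _ _).det = _
      rw [Matrix.det_fin_two, ← hprod]
      simp
    · intro g i j
      show ∃ y, _ = _ * (!![ρ g 0 0, 0; 0, ρ g 1 1] : Matrix _ _ _) i j
      rw [map_one]
      obtain ⟨z, hz1⟩ := hint g _ _ (hsum g) (hprod g)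
      obtain ⟨z', hz2⟩ := hint g _ _ ((add_comm _ _).trans (hsum g)) ((mul_comm _ _).trans (hprod g))
      fin_cases i <;> fin_cases j
      · exact ⟨z, by simpa using hz1⟩
      · exact ⟨0, by simp⟩
      · exact ⟨0, by simp⟩
      · exact ⟨z', by simpa using hz2⟩
    · intro σ I hσ i j
      show ∃ y ∈ I, _ = _ * ((!![ρ σ 0 0, 0; 0, ρ σ 1 1] : Matrix _ _ _) - 1) i j
      fin_cases i <;> fin_cases j
      · refine ⟨_, ap_sub_two_mem htr hc0 hσ, ?_⟩
        rw [map_sub, map_ap htr hc0, map_ofNat]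
        simp
        ring
      · exact ⟨0, I.zero_mem, by simp⟩
      · exact ⟨0, I.zero_mem, by simp⟩
      · refine ⟨_, am_sub_two_mem htr hc0 hσ, ?_⟩
        rw [map_sub, map_am htr hc0, map_ofNat]
        simp
        ring
  · -- irreducible-like case
    push Not at hcase
    obtain ⟨⟨h0, hB⟩, ⟨g0, hC⟩⟩ := hcase
    set γ := ρ g0 1 0 with hγ
    set β : O := cb a c0 g0 h0 with hβ
    have hβmap : algebraMap O (FractionRing O) β = 4 * (γ * ρ h0 0 1) := map_cb htr hc0 g0 h0
    have h4 : (4 : FractionRing O) ≠ 0 := by norm_num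
    have hβ0 : β ≠ 0 := by
      intro h
      rw [h, map_zero] at hβmap
      exact (mul_ne_zero h4 (mul_ne_zero hC hB)) hβmap.symm
    have hd : (4 * β : O) ≠ 0 := mul_ne_zero (by norm_num) hβ0
    refine exists_rep_of_matrix a δ (conjHom ρ γ hC) ?_ ?_ (4 * β) hd ?_ (4 * β) hd ?_ hcont
    · intro g
      show (!![ρ g 0 0, γ * ρ g 0 1; γ⁻¹ * ρ g 1 0, ρ g 1 1] : Matrix _ _ _).trace = _
      rw [Matrix.trace_fin_two, ← htr, Matrix.trace_fin_two]
      simp
    · intro g
      show (!![ρ g 0 0, γ * ρ g 0 1; γ⁻¹ * ρ g 1 0, ρ g 1 1] : Matrix _ _ _).det = _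
      rw [Matrix.det_fin_two, ← hdet, Matrix.det_fin_two]
      simp
      field_simp
    · intro g i j
      show ∃ y, _ = _ * (!![ρ g 0 0, γ * ρ g 0 1; γ⁻¹ * ρ g 1 0, ρ g 1 1] : Matrix _ _ _) i j
      fin_cases i <;> fin_cases j
      · refine ⟨2 * β * ap a c0 g, ?_⟩
        rw [map_mul, map_mul, map_mul, map_ap htr hc0, map_ofNat, map_ofNat]
        simp
        ring
      · refine ⟨β * bc a c0 g g0, ?_⟩
        rw [map_mul, map_mul, map_bc htr hc0, map_ofNat]
        simp
        ring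
      · refine ⟨4 * cb a c0 g h0, ?_⟩
        rw [map_mul, map_mul, map_cb htr hc0, map_ofNat, hβmap]
        simp
        field_simp
      · refine ⟨2 * β * am a c0 g, ?_⟩
        rw [map_mul, map_mul, map_mul, map_am htr hc0, map_ofNat, map_ofNat]
        simp
        ring
    · intro σ I hσ i j
      show ∃ y ∈ I, _ = _ *
        ((!![ρ σ 0 0, γ * ρ σ 0 1; γ⁻¹ * ρ σ 1 0, ρ σ 1 1] : Matrix _ _ _) - 1) i j
      fin_cases i <;> fin_cases j
      · refine ⟨2 * β * (ap a c0 σ - 2), I.mul_mem_left _ (ap_sub_two_mem htr hc0 hσ), ?_⟩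
        rw [map_mul, map_mul, map_mul, map_sub, map_ap htr hc0, map_ofNat, map_ofNat]
        simp
        ring
      · refine ⟨β * bc a c0 σ g0, I.mul_mem_left _ (bc_mem htr hc0 hσ g0), ?_⟩
        rw [map_mul, map_mul, map_bc htr hc0, map_ofNat]
        simp
        ring
      · refine ⟨4 * cb a c0 σ h0, I.mul_mem_left _ (cb_mem htr hc0 hσ h0), ?_⟩
        rw [map_mul, map_mul, map_cb htr hc0, map_ofNat, hβmap]
        simp
        field_simp
      · refine ⟨2 * β * (am a c0 σ - 2), I.mul_mem_left _ (am_sub_two_mem htr hc0 hσ), ?_⟩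
        rw [map_mul, map_mul, map_mul, map_sub, map_am htr hc0, map_ofNat, map_ofNat]
        simp
        ring

end Fermat.Agent.S30.Lat
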