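import Mathlib

set_option autoImplicit false

/-! # S30 [R2]: a two-dimensional pseudo-character with a "complex conjugation" is a trace -/

namespace Fermat.Agent.S30.R2

section Abstract

variable {k : Type} [Field k] {B : Type} [Ring B] [Algebra k B]
variable (tl : B →ₗ[k] k) (e e' : B)

/-- the diagonal entry attached to the idempotent `e`. -/
def Af (X : B) : k := tl (e * X)
/-- the product of the off-diagonal entries. -/
def xf (X Y : B) : k := tl (e * X * e' * Y)

variable {tl e e'}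
variable (hsym : ∀ X Y, tl (X * Y) = tl (Y * X)) (hadd : e + e' = 1)
  (hK : ∀ X Z, tl (e * X * e * Z) = tl (e * X) * tl (e * Z))
  (hK' : ∀ X Z, tl (e' * X * e' * Z) = tl (e' * X) * tl (e' * Z))

include hsym in
theorem cyc2 (P Q R S : B) : tl (P * Q * R * S) = tl (R * S * P * Q) := by
  have := hsym (P * Q) (R * S)
  simpa only [mul_assoc] using this

include hadd hK in
theorem Af_mul (X Y : B) : Af tl e (X * Y) = Af tl e X * Af tl e Y + xf tl e e' X Y := by
  unfold Af xf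
  rw [← hK, ← map_add]
  congr 1
  calc e * (X * Y) = e * X * (e + e') * Y := by rw [hadd]; noncomm_ring
    _ = _ := by noncomm_ring

include hsym hadd hK' in
theorem Df_mul (X Y : B) : Af tl e' (X * Y) = Af tl e' X * Af tl e' Y + xf tl e e' Y X := by
  unfold Af xf
  rw [← hK', cyc2 hsym e Y e' X, ← map_add]
  congr 1
  calc e' * (X * Y) = e' * X * (e + e') * Y := by rw [hadd]; noncomm_ring
    _ = _ := by noncomm_ring

include hsym hadd hK hK' in
theorem xf_mul_left (X Y Z : B) :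
    xf tl e e' (X * Y) Z = Af tl e X * xf tl e e' Y Z + Af tl e' Y * xf tl e e' X Z := by
  unfold Af xf
  have h1 : tl (e * X * e * (Y * e' * Z)) = tl (e * X) * tl (e * Y * e' * Z) := by
    rw [hK]; simp only [mul_assoc]
  have h2 : tl (e * X * (e' * Y * e' * Z)) = tl (e' * Y) * tl (e * X * e' * Z) := by
    have h3 := hK' Y (Z * e * X)
    have h4 := hsym (e * X) (e' * Y * e' * Z)
    have h5 := cyc2 hsym e' Z e X
    simp only [mul_assoc] at h3 h4 h5 ⊢
    rw [h4, h3, h5]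
  rw [← h1, ← h2, ← map_add]
  congr 1
  calc e * (X * Y) * e' * Z = e * X * (e + e') * Y * e' * Z := by rw [hadd]; noncomm_ring
    _ = _ := by noncomm_ring

include hsym hadd hK hK' in
theorem xf_mul_right (Z X Y : B) :
    xf tl e e' Z (X * Y) = Af tl e Y * xf tl e e' Z X + Af tl e' X * xf tl e e' Z Y := by
  unfold Af xf
  have h1 : tl (e * Z * e' * X * (e * Y)) = tl (e * Y) * tl (e * Z * e' * X) := by
    have h3 := hK Y (Z * e' * X)
    have h4 := hsym (e * Z * e' * X) (e * Y)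
    simp only [mul_assoc] at h3 h4 ⊢
    rw [h4, h3]
  have h2 : tl (e * Z * (e' * X * e' * Y)) = tl (e' * X) * tl (e * Z * e' * Y) := by
    have h3 := hK' X (Y * e * Z)
    have h4 := hsym (e * Z) (e' * X * e' * Y)
    have h5 := cyc2 hsym e' Y e Z
    simp only [mul_assoc] at h3 h4 h5 ⊢
    rw [h4, h3, h5]
  rw [← h1, ← h2, ← map_add]
  congr 1
  calc e * Z * e' * (X * Y) = e * Z * e' * X * (e + e') * Y := by rw [hadd]; noncomm_ring
    _ = _ := by noncomm_ring

include hsym hK hK' in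
theorem xf_exchange (X Y X' Y' : B) :
    xf tl e e' X Y * xf tl e e' X' Y' = xf tl e e' X Y' * xf tl e e' X' Y := by
  unfold xf
  have h1 := hK (X * e' * Y) (X' * e' * Y')
  have h2 := hK' (Y * e * X') (Y' * e * X)
  have h3 := hsym (e * X) (e' * Y * e * X' * e' * Y')
  have h4 := cyc2 hsym e' Y e X'
  have h5 := cyc2 hsym e' Y' e X
  simp only [mul_assoc] at h1 h2 h3 h4 h5 ⊢
  rw [← h1, h3, h2, h4, h5, mul_comm]

end Abstract

section Group

open MonoidAlgebra

variable {k : Type} [Field k] {Γ : Type} [Group Γ] (a : Γ → k) (δ : Γ →* kˣ)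

/-- the linear extension of `a` to the group algebra. -/
noncomputable def tl : MonoidAlgebra k Γ →ₗ[k] k :=
  (Finsupp.linearCombination k a) ∘ₗ (MonoidAlgebra.coeffLinearEquiv k).toLinearMap

theorem tl_of (g : Γ) : tl a (of k Γ g) = a g := by
  unfold tl
  simp [MonoidAlgebra.of]

variable {a δ}
variable (hid : ∀ g h, a (g * h) + δ h * a (g * h⁻¹) = a g * a h)
  (hs : ∀ g h, a (g * h) = a (h * g))

include hs in
theorem tl_sym (X Y : MonoidAlgebra k Γ) : tl a (X * Y) = tl a (Y * X) := by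
  induction X using MonoidAlgebra.induction_on with
  | of g =>
    induction Y using MonoidAlgebra.induction_on with
    | of h => rw [← map_mul, ← map_mul, tl_of, tl_of, hs]
    | add x y hx hy => rw [mul_add, add_mul, map_add, map_add, hx, hy]
    | smul r x hx => rw [mul_smul_comm, smul_mul_assoc, map_smul, map_smul, hx]
  | add x y hx hy => rw [mul_add, add_mul, map_add, map_add, hx, hy]
  | smul r x hx => rw [mul_smul_comm, smul_mul_assoc, map_smul, map_smul, hx]

include hid in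
theorem tl_id (W : MonoidAlgebra k Γ) (h : Γ) :
    tl a (W * of k Γ h) + δ h * tl a (W * of k Γ h⁻¹) = tl a W * a h := by
  induction W using MonoidAlgebra.induction_on with
  | of g => rw [← map_mul, ← map_mul, tl_of, tl_of, tl_of, hid]
  | add x y hx hy =>
    rw [add_mul, add_mul, map_add, map_add, map_add, add_mul, ← hx, ← hy]; ring
  | smul r x hx =>
    rw [smul_mul_assoc, smul_mul_assoc, map_smul, map_smul, map_smul, smul_eq_mul, smul_eq_mul,
      smul_eq_mul, mul_assoc, ← hx]; ring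

variable {c0 : Γ} (hc : c0 * c0 = 1) (hδ : δ c0 = -1) (h2 : (2 : k) ≠ 0)

include hid hs hc hδ h2 in
/-- the key lemma, with a sign `s = ± 1`. -/
theorem tl_key (s : k) (hs1 : s * s = 1) (W : MonoidAlgebra k Γ) (hl : of k Γ c0 * W = s • W)
    (hr : W * of k Γ c0 = s • W) (g : Γ) :
    tl a (W * of k Γ g) = tl a W * ((a g + s * a (c0 * g)) / 2) := by
  have h1 := tl_id hid W g
  have h3 := tl_id hid W (c0 * g)
  have hinv : (c0 * g)⁻¹ = g⁻¹ * c0 := by
    rw [mul_inv_rev, inv_eq_of_mul_eq_one_right hc]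
  have e1 : tl a (W * of k Γ (c0 * g)) = s * tl a (W * of k Γ g) := by
    rw [map_mul (of k Γ), ← mul_assoc, hr, smul_mul_assoc, map_smul, smul_eq_mul]
  have e2 : tl a (W * of k Γ (c0 * g)⁻¹) = s * tl a (W * of k Γ g⁻¹) := by
    rw [hinv, map_mul (of k Γ), ← mul_assoc, tl_sym hs, ← mul_assoc, hl, smul_mul_assoc, map_smul,
      smul_eq_mul]
  have e3 : ((δ (c0 * g) : kˣ) : k) = - δ g := by
    rw [map_mul, hδ]; simp
  rw [e1, e2, e3] at h3
  field_simp
  linear_combination h1 + s * h3 - (tl a (W * of k Γ g) - (δ g : k) * tl a (W * of k Γ g⁻¹)) * hs1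

variable (k) in
/-- the idempotents `(1 ± c0) / 2`. -/
noncomputable def es (c0 : Γ) (s : k) : MonoidAlgebra k Γ := (1 / 2 : k) • (1 + s • of k Γ c0)

include hc in
theorem of_mul_es (s : k) (hs1 : s * s = 1) : of k Γ c0 * es k c0 s = s • es k c0 s := by
  unfold es
  rw [mul_smul_comm, mul_add, mul_one, mul_smul_comm, ← map_mul (of k Γ), hc, map_one, smul_comm s]
  congr 1
  rw [smul_add, smul_smul s s, hs1, one_smul, add_comm]

include hc in
theorem es_mul_of (s : k) (hs1 : s * s = 1) : es k c0 s * of k Γ c0 = s • es k c0 s := by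
  unfold es
  rw [smul_mul_assoc, add_mul, one_mul, smul_mul_assoc, ← map_mul (of k Γ), hc, map_one,
    smul_comm s]
  congr 1
  rw [smul_add, smul_smul s s, hs1, one_smul, add_comm]

include hc h2 in
theorem es_mul_es (s : k) (hs1 : s * s = 1) : es k c0 s * es k c0 s = es k c0 s := by
  have h : es k c0 s * es k c0 s = ((1 / 2 : k) • (1 + s • of k Γ c0)) * es k c0 s := rfl
  rw [h, smul_mul_assoc, add_mul, one_mul, smul_mul_assoc, of_mul_es hc s hs1, smul_smul, hs1,
    one_smul, ← two_smul k, smul_smul]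
  rw [show (1 / 2 : k) * 2 = 1 by field_simp, one_smul]

include h2 in
theorem es_add_es : es k c0 (1 : k) + es k c0 (-1 : k) = 1 := by
  unfold es
  rw [← smul_add, one_smul, neg_smul, one_smul]
  rw [show (1 + of k Γ c0 + (1 + -of k Γ c0) : MonoidAlgebra k Γ) = (2 : k) • 1 by
    rw [two_smul]; abel, smul_smul]
  rw [show (1 / 2 : k) * 2 = 1 by field_simp, one_smul]

theorem tl_es_mul_of (s : k) (g : Γ) :
    tl a (es k c0 s * of k Γ g) = (a g + s * a (c0 * g)) / 2 := by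
  unfold es
  rw [smul_mul_assoc, add_mul, one_mul, smul_mul_assoc, ← map_mul (of k Γ), map_smul, map_add,
    map_smul, tl_of, tl_of, smul_eq_mul, smul_eq_mul]
  ring

include hid hs hc hδ h2 in
theorem tl_key_lin (s : k) (hs1 : s * s = 1) (W : MonoidAlgebra k Γ)
    (hl : of k Γ c0 * W = s • W) (hr : W * of k Γ c0 = s • W) (Z : MonoidAlgebra k Γ) :
    tl a (W * Z) = tl a W * tl a (es k c0 s * Z) := by
  induction Z using MonoidAlgebra.induction_on with
  | of g => rw [tl_key hid hs hc hδ h2 s hs1 W hl hr, tl_es_mul_of]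
  | add x y hx hy => rw [mul_add, mul_add, map_add, map_add, hx, hy, mul_add]
  | smul r x hx =>
    rw [mul_smul_comm, mul_smul_comm, map_smul, map_smul, hx, smul_eq_mul, smul_eq_mul]; ring

include hid hs hc hδ h2 in
theorem tl_K (s : k) (hs1 : s * s = 1) (X Z : MonoidAlgebra k Γ) :
    tl a (es k c0 s * X * es k c0 s * Z) = tl a (es k c0 s * X) * tl a (es k c0 s * Z) := by
  rw [tl_key_lin hid hs hc hδ h2 s hs1 (es k c0 s * X * es k c0 s)]
  · rw [tl_sym hs, ← mul_assoc, es_mul_es hc h2 s hs1]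
  · rw [← mul_assoc, ← mul_assoc, of_mul_es hc s hs1, smul_mul_assoc, smul_mul_assoc]
  · rw [mul_assoc, es_mul_of hc s hs1, mul_smul_comm]

end Group

section Entries

open MonoidAlgebra

variable {k : Type} [Field k] {Γ : Type} [Group Γ] (a : Γ → k) (c0 : Γ)

/-- the upper left entry. -/
def Ag (g : Γ) : k := (a g + a (c0 * g)) / 2
/-- the lower right entry. -/
def Dg (g : Γ) : k := (a g - a (c0 * g)) / 2
/-- the product of the upper right entry of `g` and the lower left entry of `h`. -/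
def xg (g h : Γ) : k := Ag a c0 (g * h) - Ag a c0 g * Ag a c0 h

variable {a c0} {δ : Γ →* kˣ}
variable (h1 : a 1 = 2) (hid : ∀ g h, a (g * h) + δ h * a (g * h⁻¹) = a g * a h)
  (hs : ∀ g h, a (g * h) = a (h * g)) (hc : c0 * c0 = 1) (hδ : δ c0 = -1) (h2 : (2 : k) ≠ 0)

theorem Af_of (g : Γ) : Af (tl a) (es k c0 1) (of k Γ g) = Ag a c0 g := by
  unfold Af Ag
  rw [tl_es_mul_of, one_mul]

theorem Df_of (g : Γ) : Af (tl a) (es k c0 (-1)) (of k Γ g) = Dg a c0 g := by
  unfold Af Dg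
  rw [tl_es_mul_of, neg_one_mul, sub_eq_add_neg]

include hid hs hc hδ h2 in
theorem xf_of (g h : Γ) :
    xf (tl a) (es k c0 1) (es k c0 (-1)) (of k Γ g) (of k Γ h) = xg a c0 g h := by
  have := Af_mul (tl := tl a) (es_add_es h2) (tl_K hid hs hc hδ h2 1 (by ring)) (of k Γ g) (of k Γ h)
  rw [← map_mul (of k Γ), Af_of, Af_of, Af_of] at this
  unfold xg
  rw [this]; ring

theorem Ag_mul (g h : Γ) : Ag a c0 (g * h) = Ag a c0 g * Ag a c0 h + xg a c0 g h := by
  unfold xg; ring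

include hid hs hc hδ h2 in
theorem Dg_mul (g h : Γ) : Dg a c0 (g * h) = Dg a c0 g * Dg a c0 h + xg a c0 h g := by
  have := Df_mul (tl := tl a) (tl_sym hs) (es_add_es h2) (tl_K hid hs hc hδ h2 (-1) (by ring))
    (of k Γ g) (of k Γ h)
  rwa [← map_mul (of k Γ), Df_of, Df_of, Df_of, xf_of hid hs hc hδ h2] at this

include hid hs hc hδ h2 in
theorem xg_mul_left (g h z : Γ) :
    xg a c0 (g * h) z = Ag a c0 g * xg a c0 h z + Dg a c0 h * xg a c0 g z := by
  have := xf_mul_left (tl := tl a) (tl_sym hs) (es_add_es h2) (tl_K hid hs hc hδ h2 1 (by ring))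
    (tl_K hid hs hc hδ h2 (-1) (by ring)) (of k Γ g) (of k Γ h) (of k Γ z)
  rwa [← map_mul (of k Γ), Af_of, Df_of, xf_of hid hs hc hδ h2, xf_of hid hs hc hδ h2,
    xf_of hid hs hc hδ h2] at this

include hid hs hc hδ h2 in
theorem xg_mul_right (z g h : Γ) :
    xg a c0 z (g * h) = Ag a c0 h * xg a c0 z g + Dg a c0 g * xg a c0 z h := by
  have := xf_mul_right (tl := tl a) (tl_sym hs) (es_add_es h2) (tl_K hid hs hc hδ h2 1 (by ring))
    (tl_K hid hs hc hδ h2 (-1) (by ring)) (of k Γ z) (of k Γ g) (of k Γ h)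
  rwa [← map_mul (of k Γ), Af_of, Df_of, xf_of hid hs hc hδ h2, xf_of hid hs hc hδ h2,
    xf_of hid hs hc hδ h2] at this

include hid hs hc hδ h2 in
theorem xg_exchange (g h g' h' : Γ) :
    xg a c0 g h * xg a c0 g' h' = xg a c0 g h' * xg a c0 g' h := by
  have := xf_exchange (tl := tl a) (tl_sym hs) (tl_K hid hs hc hδ h2 1 (by ring))
    (tl_K hid hs hc hδ h2 (-1) (by ring)) (of k Γ g) (of k Γ h) (of k Γ g') (of k Γ h')
  rwa [xf_of hid hs hc hδ h2, xf_of hid hs hc hδ h2, xf_of hid hs hc hδ h2,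
    xf_of hid hs hc hδ h2] at this

include h2 in
theorem Ag_add_Dg (g : Γ) : Ag a c0 g + Dg a c0 g = a g := by
  unfold Ag Dg; field_simp; ring

include h1 hid hc hδ in
theorem a_c0 : a c0 = 0 := by
  have := hid c0 c0
  rw [hc, mul_inv_cancel, h1, hδ] at this
  have h3 : a c0 * a c0 = 0 := by rw [← this]; simp
  exact mul_self_eq_zero.mp h3

include h1 hid hc hδ h2 in
theorem Ag_one : Ag a c0 1 = 1 := by
  unfold Ag
  rw [mul_one, h1, a_c0 h1 hid hc hδ, add_zero, div_self h2]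

include h1 hid hc hδ h2 in
theorem Dg_one : Dg a c0 1 = 1 := by
  unfold Dg
  rw [mul_one, h1, a_c0 h1 hid hc hδ, sub_zero, div_self h2]

include h1 hid hc hδ h2 in
theorem Ag_c0 : Ag a c0 c0 = 1 := by
  unfold Ag
  rw [hc, h1, a_c0 h1 hid hc hδ, zero_add, div_self h2]

include h1 hid hc hδ h2 in
theorem Dg_c0 : Dg a c0 c0 = -1 := by
  unfold Dg
  rw [hc, h1, a_c0 h1 hid hc hδ, zero_sub, neg_div, div_self h2]

include h1 hid hc hδ h2 in
theorem xg_one_left (h : Γ) : xg a c0 1 h = 0 := by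
  unfold xg
  rw [one_mul, Ag_one h1 hid hc hδ h2, one_mul, sub_self]

include h1 hid hc hδ h2 in
theorem xg_one_right (g : Γ) : xg a c0 g 1 = 0 := by
  unfold xg
  rw [mul_one, Ag_one h1 hid hc hδ h2, mul_one, sub_self]

include hc in
theorem Ag_c0_mul (h : Γ) : Ag a c0 (c0 * h) = Ag a c0 h := by
  unfold Ag
  rw [← mul_assoc, hc, one_mul, add_comm]

include hs hc in
theorem Ag_mul_c0 (g : Γ) : Ag a c0 (g * c0) = Ag a c0 g := by
  unfold Ag
  rw [hs c0 (g * c0), mul_assoc, hc, mul_one, hs g c0, add_comm]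

include h1 hid hc hδ h2 in
theorem xg_c0_left (h : Γ) : xg a c0 c0 h = 0 := by
  unfold xg
  rw [Ag_c0_mul hc, Ag_c0 h1 hid hc hδ h2, one_mul, sub_self]

include h1 hid hs hc hδ h2 in
theorem xg_c0_right (g : Γ) : xg a c0 g c0 = 0 := by
  unfold xg
  rw [Ag_mul_c0 hs hc, Ag_c0 h1 hid hc hδ h2, mul_one, sub_self]

include h1 hid hc hδ h2 in
theorem det_eq (g : Γ) : Ag a c0 g * Dg a c0 g - xg a c0 g g = δ g := by
  have e1 := hid g g
  have e2 := hid (c0 * g) g
  rw [mul_inv_cancel, h1] at e1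
  rw [mul_assoc, mul_assoc, mul_inv_cancel, mul_one, a_c0 h1 hid hc hδ, mul_zero, add_zero] at e2
  unfold xg Ag Dg
  rw [e2]
  have e3 : a (g * g) = a g * a g - δ g * 2 := by rw [← e1]; ring
  rw [e3]
  field_simp
  ring

include h1 hid hs hc hδ h2 in
/-- **[R2], explicit form.** -/
theorem exists_rep_explicit :
    ∃ ρ : Γ →* Matrix (Fin 2) (Fin 2) k,
      ((∀ g h, xg a c0 g h = 0) ∧ ∀ g, ρ g = !![Ag a c0 g, 0; 0, Dg a c0 g]) ∨
      (∃ g0 h0, xg a c0 g0 h0 ≠ 0 ∧
        ∀ g, ρ g = !![Ag a c0 g, xg a c0 g h0 / xg a c0 g0 h0; xg a c0 g0 g, Dg a c0 g]) := by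
  by_cases hx : ∀ g h, xg a c0 g h = 0
  · refine ⟨{ toFun := fun g => !![Ag a c0 g, 0; 0, Dg a c0 g], map_one' := ?_, map_mul' := ?_ },
      Or.inl ⟨hx, fun g => rfl⟩⟩
    · rw [Ag_one h1 hid hc hδ h2, Dg_one h1 hid hc hδ h2, Matrix.one_fin_two]
    · intro g h
      rw [Matrix.mul_fin_two, Ag_mul, Dg_mul hid hs hc hδ h2, hx, hx]
      simp
  · push Not at hx
    obtain ⟨g0, h0, h00⟩ := hx
    refine ⟨{ toFun := fun g =>
                !![Ag a c0 g, xg a c0 g h0 / xg a c0 g0 h0; xg a c0 g0 g, Dg a c0 g],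
              map_one' := ?_, map_mul' := ?_ }, Or.inr ⟨g0, h0, h00, fun g => rfl⟩⟩
    · rw [Ag_one h1 hid hc hδ h2, Dg_one h1 hid hc hδ h2, xg_one_left h1 hid hc hδ h2,
        xg_one_right h1 hid hc hδ h2, zero_div, Matrix.one_fin_two]
    · intro g h
      rw [Matrix.mul_fin_two]
      have e11 : Ag a c0 (g * h) =
          Ag a c0 g * Ag a c0 h + xg a c0 g h0 / xg a c0 g0 h0 * xg a c0 g0 h := by
        rw [Ag_mul, div_mul_eq_mul_div, xg_exchange hid hs hc hδ h2 g h0 g0 h,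
          mul_div_assoc, div_self h00, mul_one]
      have e12 : xg a c0 (g * h) h0 / xg a c0 g0 h0 =
          Ag a c0 g * (xg a c0 h h0 / xg a c0 g0 h0) +
            xg a c0 g h0 / xg a c0 g0 h0 * Dg a c0 h := by
        rw [xg_mul_left hid hs hc hδ h2]; ring
      have e21 : xg a c0 g0 (g * h) = xg a c0 g0 g * Ag a c0 h + Dg a c0 g * xg a c0 g0 h := by
        rw [xg_mul_right hid hs hc hδ h2]; ring
      have e22 : Dg a c0 (g * h) =
          xg a c0 g0 g * (xg a c0 h h0 / xg a c0 g0 h0) + Dg a c0 g * Dg a c0 h := by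
        rw [Dg_mul hid hs hc hδ h2, ← mul_div_assoc, xg_exchange hid hs hc hδ h2 g0 g h h0,
          mul_comm (xg a c0 g0 h0), mul_div_assoc, div_self h00, mul_one, add_comm]
      rw [← e11, ← e12, ← e21, ← e22]

include h1 hid hs hc hδ h2 in
/-- **[R2].** A two-dimensional pseudo-character `(a, δ)` with an element `c0` of order two and
`δ c0 = -1` is the trace of a representation in which `c0` is `diag(1, -1)`. -/
theorem exists_rep :
    ∃ ρ : Γ →* Matrix (Fin 2) (Fin 2) k,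
      (∀ g, (ρ g).trace = a g ∧ (ρ g).det = δ g) ∧ ρ c0 = !![1, 0; 0, -1] := by
  obtain ⟨ρ, ⟨hx, hρ⟩ | ⟨g0, h0, h00, hρ⟩⟩ := exists_rep_explicit h1 hid hs hc hδ h2
  · refine ⟨ρ, fun g => ⟨?_, ?_⟩, ?_⟩
    · rw [hρ, Matrix.trace_fin_two_of, Ag_add_Dg h2]
    · rw [hρ, Matrix.det_fin_two_of, ← det_eq h1 hid hc hδ h2 g, hx]; ring
    · rw [hρ, Ag_c0 h1 hid hc hδ h2, Dg_c0 h1 hid hc hδ h2]
  · refine ⟨ρ, fun g => ⟨?_, ?_⟩, ?_⟩
    · rw [hρ, Matrix.trace_fin_two_of, Ag_add_Dg h2]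
    · rw [hρ, Matrix.det_fin_two_of, ← det_eq h1 hid hc hδ h2 g, div_mul_eq_mul_div,
        xg_exchange hid hs hc hδ h2 g h0 g0 g, mul_div_assoc, div_self h00, mul_one]
    · rw [hρ, Ag_c0 h1 hid hc hδ h2, Dg_c0 h1 hid hc hδ h2, xg_c0_left h1 hid hc hδ h2,
        xg_c0_right h1 hid hs hc hδ h2, zero_div]

end Entries

end Fermat.Agent.S30.R2

namespace Fermat.Agent.S30

/-- **[R2]** in the shape of the blueprint. -/
theorem rep2 {k : Type} [Field k] (h2 : (2 : k) ≠ 0) {Γ : Type} [Group Γ] (a : Γ → k)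
    (δ : Γ →* kˣ) (h1 : a 1 = 2) (hid : ∀ g h, a (g * h) + δ h * a (g * h⁻¹) = a g * a h)
    (hs : ∀ g h, a (g * h) = a (h * g)) (c0 : Γ) (hc : c0 * c0 = 1) (hδ : δ c0 = -1) :
    ∃ ρ : Γ →* Matrix (Fin 2) (Fin 2) k,
      (∀ g, (ρ g).trace = a g ∧ (ρ g).det = δ g) ∧ ρ c0 = !![1, 0; 0, -1] :=
  R2.exists_rep h1 hid hs hc hδ h2

end Fermat.Agent.S30
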