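import Mathlib
import Fermat.Agent.S30.PseudoDefs
import Fermat.Agent.S30.Rep2
import Fermat.Agent.S30.Lattice

set_option autoImplicit false

/-! # S30 [ALG] = [R2] + [LAT]: a continuous pseudo-character with a complex conjugation is the
trace of an adic Galois representation -/

namespace Fermat.Agent.S30

open Polynomial

variable {O : Type} [CommRing O] [IsDomain O] [IsDiscreteValuationRing O] [CharZero O]

theorem PseudoData.delta_c (P : PseudoData O) : P.δ P.c = -1 := by
  have h := P.t_mul P.c P.c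
  rw [P.c_sq, mul_inv_cancel, P.t_one, P.t_c, mul_zero] at h
  have h2 : ((P.δ P.c : Oˣ) : O) = -1 := by
    have h3 : (2 : O) * (1 + (P.δ P.c : O)) = 0 := by linear_combination h
    rcases mul_eq_zero.mp h3 with h4 | h4
    · exact absurd h4 two_ne_zero
    · linear_combination h4
  ext
  rw [h2]; simp

/-- **[ALG].** -/
theorem PseudoData.exists_galoisRep (P : PseudoData O) :
    ∃ ρ : GaloisRepAdic O,
      (∀ g, LinearMap.charpoly (ρ.ρ g) = X ^ 2 - C (P.t g) * X + C ((P.δ g : Oˣ) : O)) ∧
      ∀ i, (∀ g, P.t (g * i) = P.t g) → ρ.ρ i = 1 := by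
  let K := FractionRing O
  let a : GQ → K := fun g => algebraMap O K (P.t g)
  let δ : GQ →* Kˣ := (Units.map (algebraMap O K : O →* K)).comp P.δ
  have hδ : ∀ g, ((δ g : Kˣ) : K) = algebraMap O K (P.δ g : O) := fun g => rfl
  obtain ⟨ρ, hρ, hc0⟩ := rep2 (k := K) two_ne_zero a δ
    (by change algebraMap O K (P.t 1) = 2; rw [P.t_one, map_ofNat])
    (by
      intro g h
      change algebraMap O K (P.t (g * h)) + (δ h : K) * algebraMap O K (P.t (g * h⁻¹)) =
        algebraMap O K (P.t g) * algebraMap O K (P.t h)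
      rw [hδ, ← map_mul, ← map_add, P.t_mul, map_mul])
    (by intro g h; change algebraMap O K (P.t (g * h)) = algebraMap O K (P.t (h * g)); rw [P.t_comm])
    P.c P.c_sq
    (by
      ext
      rw [hδ, P.delta_c]; simp)
  obtain ⟨R, hR1, hR2⟩ := Lat.exists_galoisRepAdic P.t (fun g => ((P.δ g : Oˣ) : O)) ρ
    (fun g => (hρ g).1) (fun g => (hρ g).2) P.c hc0
    (by
      intro n
      obtain ⟨L, hL, h⟩ := P.cont n
      exact ⟨L, hL, fun σ hσ g => by rw [P.t_comm]; exact h σ hσ g⟩)
  exact ⟨R, hR1, fun i hi => hR2 i fun h => by rw [P.t_comm]; exact hi h⟩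

end Fermat.Agent.S30
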