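import Mathlib
import Fermat.Agent.S30.GeoC
import Fermat.Agent.S30.CycAdic
import Fermat.Agent.S30.Wrap

set_option autoImplicit false
set_option linter.unusedSectionVars false
set_option synthInstance.maxHeartbeats 400000

/-! # S30 [GEO]: the interface statement -/

namespace Fermat.Agent.S30.Geo

theorem geo : GeoStmt := by
  intro p _ N _ S hpS _ O _ _ _ _ _ _ hpO χ
  obtain ⟨P, hδ, -, hfrob, hin⟩ := exists_pseudo N S p hpS hpO χ (cycA p hpO)
    (fun n k σ ζ hζ h => cycA_sub_mem p hpO hζ h) complexConjugation complexConjugation_mul_self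
    (fun m ζ hm hζ => complexConjugation_root hm hζ)
  refine ⟨P, fun ℓ hℓ hℓN hℓS A hA σ hσ => ⟨hfrob ℓ hℓ hℓN hℓS A hA σ hσ, ?_⟩, hin⟩
  have hne : ℓ ≠ p := fun h => hℓS (h ▸ Finset.mem_coe.mpr hpS)
  rw [hδ]
  exact cycA_frobenius p hpO A hA hℓ hne hσ

end Fermat.Agent.S30.Geo
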