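import Mathlib

set_option autoImplicit false
set_option linter.style.haveILetI false
set_option linter.unusedSectionVars false

/-! # S30 [E1], abstract part: a character of a commutative ring of operators, finite over `ℤ`,
with values in a domain of characteristic zero, has the same kernel as an eigencharacter. -/

namespace Fermat.Agent.S30

open Module

section

variable {R : Type} [CommRing R] [Module.Finite ℤ R]

theorem comap_ker_eq_bot {O : Type} [CommRing O] [CharZero O] (χ : R →+* O) :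
    (RingHom.ker χ).comap (algebraMap ℤ R) = ⊥ := by
  rw [eq_bot_iff]
  intro n hn
  rw [Ideal.mem_comap, RingHom.mem_ker, eq_intCast, map_intCast] at hn
  rw [Ideal.mem_bot]
  exact_mod_cast hn

/-- incomparability. -/
theorem eq_of_le_of_comap_eq_bot {I J : Ideal R} [I.IsPrime] (hIJ : I ≤ J)
    (hJ : J.comap (algebraMap ℤ R) = ⊥) : I = J := by
  by_contra hne
  have hlt : I < J := lt_of_le_of_ne hIJ hne
  obtain ⟨x, hxJ, hxI⟩ := SetLike.exists_of_lt hlt
  have := Ideal.comap_lt_comap_of_integral_mem_sdiff hIJ (x := x) ⟨hxJ, hxI⟩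
    (Algebra.IsIntegral.isIntegral (R := ℤ) x)
  rw [hJ] at this
  exact not_lt_bot this

theorem exists_annihilated {I : Ideal R} [I.IsPrime] (hI : I.comap (algebraMap ℤ R) = ⊥) :
    ∃ s : R, s ≠ 0 ∧ ∀ t ∈ I, t * s = 0 := by
  have : IsNoetherianRing R := IsNoetherianRing.of_finite ℤ R
  have hmin : I ∈ (Module.annihilator R R).minimalPrimes := by
    refine ⟨⟨inferInstance, ?_⟩, ?_⟩
    · intro x hx
      have := Module.mem_annihilator.mp hx 1
      rw [smul_eq_mul, mul_one] at this
      rw [this]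
      exact I.zero_mem
    · rintro J ⟨hJ, -⟩ hJI
      haveI := hJ
      exact (eq_of_le_of_comap_eq_bot hJI hI).ge
  have hass := Module.associatedPrimes.minimalPrimes_annihilator_subset_associatedPrimes R R hmin
  obtain ⟨hp, s, hs⟩ := isAssociatedPrime_iff.mp hass
  refine ⟨s, ?_, fun t ht => ?_⟩
  · rintro rfl
    apply hp.ne_top
    rw [hs, eq_top_iff]
    intro x _
    rw [Submodule.mem_colon_singleton]
    simp
  · rw [hs, Submodule.mem_colon_singleton, Submodule.mem_bot, smul_eq_mul] at ht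
    exact ht

end

variable {R : Type} [CommRing R] {V : Type} [AddCommGroup V] [Module ℂ V] [FiniteDimensional ℂ V]

/-- a common eigenvector in a nonzero stable subspace. -/
theorem exists_common_eigenvector (φ : R →+* Module.End ℂ V) (W₀ : Submodule ℂ V) (h0 : W₀ ≠ ⊥)
    (hst : ∀ t, ∀ w ∈ W₀, φ t w ∈ W₀) :
    ∃ v ∈ W₀, v ≠ 0 ∧ ∀ t, ∃ μ : ℂ, φ t v = μ • v := by
  let 𝒲 : Set (Submodule ℂ V) := {W | W ≠ ⊥ ∧ W ≤ W₀ ∧ ∀ t, ∀ w ∈ W, φ t w ∈ W}
  obtain ⟨W, ⟨hW0, hWle, hWst⟩, hmin⟩ := IsArtinian.set_has_minimal 𝒲 ⟨W₀, h0, le_rfl, hst⟩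
  have key : ∀ t, ∃ μ : ℂ, ∀ w ∈ W, φ t w = μ • w := by
    intro t
    haveI : Nontrivial W := Submodule.nontrivial_iff_ne_bot.mpr hW0
    obtain ⟨μ, hμ⟩ := Module.End.exists_eigenvalue ((φ t).restrict (hWst t))
    obtain ⟨w, hw⟩ := hμ.exists_hasEigenvector
    have hw1 : φ t (w : V) = μ • (w : V) := congrArg Subtype.val hw.apply_eq_smul
    have hw0 : (w : V) ≠ 0 := fun h => hw.2 (Subtype.ext h)
    let W' : Submodule ℂ V := W ⊓ LinearMap.ker (φ t - μ • (1 : Module.End ℂ V))
    have hmem : ∀ x, x ∈ W' ↔ x ∈ W ∧ φ t x = μ • x := by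
      intro x
      simp only [W', Submodule.mem_inf, LinearMap.mem_ker, LinearMap.sub_apply,
        LinearMap.smul_apply, Module.End.one_apply, sub_eq_zero]
    have hW' : W' ∈ 𝒲 := by
      refine ⟨?_, inf_le_left.trans hWle, fun t' x hx => ?_⟩
      · intro h
        have : (w : V) ∈ W' := (hmem _).mpr ⟨w.2, hw1⟩
        rw [h, Submodule.mem_bot] at this
        exact hw0 this
      · rw [hmem] at hx ⊢
        refine ⟨hWst t' x hx.1, ?_⟩
        have hc : φ t (φ t' x) = φ t' (φ t x) := by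
          have : φ t * φ t' = φ t' * φ t := by rw [← map_mul, ← map_mul, mul_comm]
          exact LinearMap.congr_fun this x
        rw [hc, hx.2, map_smul]
    have hle : W' ≤ W := inf_le_left
    have heq : W' = W := by
      by_contra hne
      exact hmin W' hW' (lt_of_le_of_ne hle hne)
    refine ⟨μ, fun x hx => ?_⟩
    rw [← heq] at hx
    exact ((hmem x).mp hx).2
  obtain ⟨v, hvW, hv0⟩ := Submodule.exists_mem_ne_zero_of_ne_bot hW0
  exact ⟨v, hWle hvW, hv0, fun t => (key t).imp fun μ h => h v hvW⟩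

/-- the eigencharacter of a common eigenvector. -/
theorem exists_eigenchar (φ : R →+* Module.End ℂ V) (v : V) (hv : v ≠ 0)
    (h : ∀ t, ∃ μ : ℂ, φ t v = μ • v) : ∃ lam : R →+* ℂ, ∀ t, φ t v = lam t • v := by
  choose f hf using h
  have inj : ∀ a b : ℂ, a • v = b • v → a = b := fun a b hab => smul_left_injective ℂ hv hab
  refine ⟨{ toFun := f, map_one' := ?_, map_mul' := ?_, map_zero' := ?_, map_add' := ?_ }, hf⟩
  · apply inj
    rw [← hf, map_one, one_smul, Module.End.one_apply]
  · intro a b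
    apply inj
    rw [← hf, map_mul, Module.End.mul_apply, hf b, map_smul, hf a, smul_smul, mul_comm]
  · apply inj
    rw [← hf, map_zero, zero_smul, LinearMap.zero_apply]
  · intro a b
    apply inj
    rw [← hf, map_add, LinearMap.add_apply, hf a, hf b, add_smul]

theorem exists_eigen_abs [Module.Finite ℤ R] (φ : R →+* Module.End ℂ V)
    (hφ : Function.Injective φ) {O : Type} [CommRing O] [IsDomain O] [CharZero O] (χ : R →+* O) :
    ∃ (v : V) (lam : R →+* ℂ), v ≠ 0 ∧ (∀ t, φ t v = lam t • v) ∧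
      RingHom.ker lam = RingHom.ker χ := by
  haveI : (RingHom.ker χ).IsPrime := RingHom.ker_isPrime χ
  obtain ⟨s, hs0, hs⟩ := exists_annihilated (comap_ker_eq_bot χ)
  have hφs : φ s ≠ 0 := fun h => hs0 (hφ (h.trans (map_zero φ).symm))
  have h0 : LinearMap.range (φ s) ≠ ⊥ := by
    intro h
    exact hφs (LinearMap.range_eq_bot.mp h)
  obtain ⟨v, hvW, hv0, hv⟩ := exists_common_eigenvector φ (LinearMap.range (φ s)) h0 (by
    rintro t _ ⟨x, rfl⟩
    refine ⟨φ t x, ?_⟩
    have : φ s * φ t = φ t * φ s := by rw [← map_mul, ← map_mul, mul_comm]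
    exact LinearMap.congr_fun this x)
  obtain ⟨lam, hlam⟩ := exists_eigenchar φ v hv0 hv
  refine ⟨v, lam, hv0, hlam, ?_⟩
  symm
  apply eq_of_le_of_comap_eq_bot _ (comap_ker_eq_bot lam)
  intro t ht
  rw [RingHom.mem_ker]
  obtain ⟨x, rfl⟩ := hvW
  have h1 : φ t (φ s x) = 0 := by
    have : φ t * φ s = 0 := by rw [← map_mul, hs t ht, map_zero]
    exact LinearMap.congr_fun this x
  rw [hlam] at h1
  exact (smul_eq_zero.mp h1).resolve_right hv0

end Fermat.Agent.S30
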