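import Fermat.Agent.S30.EigenAbs
import Fermat.Agent.S22
import Fermat.Agent.S23.Descent

set_option autoImplicit false

/-! # S30 [E1]: every character of the Hecke algebra with values in a domain of characteristic
zero has the kernel of the eigencharacter of a cusp form -/

namespace Fermat.Agent.S30

open CuspForm

theorem exists_eigenform (N : ℕ) [NeZero N] (S : Set ℕ) {O : Type} [CommRing O] [IsDomain O]
    [CharZero O] (χ : heckeAlgebra N 2 S →+* O) :
    ∃ (g : CuspForm (CongruenceSubgroup.Gamma0 N) 2) (lam : heckeAlgebra N 2 S →+* ℂ),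
      g ≠ 0 ∧ (∀ t : heckeAlgebra N 2 S, t.1 g = lam t • g) ∧
        RingHom.ker lam = RingHom.ker χ := by
  haveI : Module.Finite ℤ (heckeAlgebra N 2 S) := Fermat.Agent.S22.result N 2 S
  haveI : FiniteDimensional ℂ (CuspForm (CongruenceSubgroup.Gamma0 N) 2) :=
    Fermat.Agent.S23.finiteDimensional_cuspForm N 2
  exact exists_eigen_abs (heckeAlgebra N 2 S).val.toRingHom Subtype.val_injective χ

end Fermat.Agent.S30
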