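import Mathlib

set_option autoImplicit false

/-! # S30 [PS]: from quadratic relations on a tower of cyclic modules to a pseudo-character -/

namespace Fermat.Agent.S30.PS

variable {O : Type} [CommRing O] {G : Type} [Group G]

/-- the quadratic relation `g² - a g + δ(g) = 0` at the point `h w`. -/
def Rel (δ : G →* Oˣ) {X : Type*} [AddCommGroup X] [Module O X] (r : G →* Module.End O X) (w : X)
    (g : G) (a : O) (h : G) : Prop :=
  r g (r g (r h w)) - a • r g (r h w) + (δ g : O) • r h w = 0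

section level

variable (δ : G →* Oˣ) {X : Type*} [AddCommGroup X] [Module O X] (r : G →* Module.End O X) (w : X)

theorem r_r (g h : G) (x : X) : r g (r h x) = r (g * h) x := by
  rw [map_mul]; rfl

/-- `g + δ(g) g⁻¹ = a` on the orbit. -/
theorem key {g : G} {a : O} (h : ∀ k, Rel δ r w g a k) (k : G) :
    r (g * k) w + (δ g : O) • r (g⁻¹ * k) w = a • r k w := by
  have h1 := h (g⁻¹ * k)
  unfold Rel at h1
  rw [r_r r g (g⁻¹ * k), mul_inv_cancel_left, r_r] at h1
  linear_combination (norm := module) h1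

theorem smul_eq_zero_of_rel {g : G} {a b : O} (ha : ∀ k, Rel δ r w g a k)
    (hb : ∀ k, Rel δ r w g b k) : (a - b) • w = 0 := by
  have h1 := key δ r w ha 1
  have h2 := key δ r w hb 1
  rw [map_one, Module.End.one_apply] at h1 h2
  linear_combination (norm := module) h2 - h1

variable (a : G → O) (ha : ∀ g k, Rel δ r w g (a g) k)
include ha

theorem one_smul' : (a 1 - 2) • w = 0 := by
  have h1 := key δ r w (ha 1) 1
  simp only [mul_one, inv_one, map_one, Module.End.one_apply, Units.val_one, one_smul] at h1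
  linear_combination (norm := module) -h1

theorem mul_smul' (g h : G) :
    (a (g * h) + (δ h : O) * a (g * h⁻¹) - a g * a h) • w = 0 := by
  have k1 := key δ r w (ha (g * h)) 1
  have k2 := key δ r w (ha (g * h⁻¹)) 1
  have k3 := key δ r w (ha h) 1
  have k4 := key δ r w (ha g) h
  have k5 := key δ r w (ha g) h⁻¹
  have k6 := key δ r w (ha h) g⁻¹
  have k7 := congrArg (r g⁻¹) k3
  rw [map_add, map_smul, map_smul, r_r, r_r, r_r] at k7
  simp only [mul_one, mul_inv_rev, inv_inv] at k1 k2 k3 k4 k5 k6 k7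
  rw [map_one, Module.End.one_apply] at k1 k2 k3
  rw [map_mul δ, Units.val_mul] at k1 k2
  have hu : (δ h : O) * ((δ h⁻¹ : Oˣ) : O) = 1 := by
    rw [← Units.val_mul, ← map_mul, mul_inv_cancel, map_one, Units.val_one]
  have k2' : (δ h : O) • r (g * h⁻¹) w + (δ g : O) • r (h * g⁻¹) w =
      ((δ h : O) * a (g * h⁻¹)) • w := by
    have := congrArg (fun x => (δ h : O) • x) k2
    simp only [smul_add, smul_smul] at this
    rw [show (δ h : O) * ((δ g : O) * ((δ h⁻¹ : Oˣ) : O)) = (δ g : O) by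
      rw [mul_comm (δ g : O), ← mul_assoc, hu, one_mul]] at this
    exact this
  linear_combination (norm := module) -k1 - k2' + a g • k3 + k4 + (δ h : O) • k5
    + (δ g : O) • k6 - (δ g : O) • k7

theorem comm_smul' (g h : G) : (a (g * h) - a (h * g)) • w = 0 := by
  have k1 := key δ r w (ha (g * h)) h⁻¹
  have k2 := key δ r w (ha (h * g)) 1
  have k3 := congrArg (r h) k1
  rw [map_add, map_smul, map_smul, r_r, r_r, r_r] at k3
  simp only [mul_one, mul_inv_rev, mul_assoc, mul_inv_cancel, mul_inv_cancel_left] at k2 k3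
  rw [map_one, Module.End.one_apply] at k2 k3
  rw [map_mul δ, Units.val_mul] at k2 k3
  linear_combination (norm := module) k2 - k3

theorem triv_smul' (I : Ideal O) (hkill : ∀ c ∈ I, ∀ x : X, c • x = 0) (g : G)
    (hg : ∀ h, r g (r h w) = r h w) (hδ : (δ g : O) - 1 ∈ I) (h : G) :
    (a (g * h) - a h) • w = 0 := by
  have k1 := key δ r w (ha (g * h)) 1
  have k2 := key δ r w (ha h) 1
  simp only [mul_one, mul_inv_rev] at k1 k2
  rw [map_one, Module.End.one_apply] at k1 k2
  rw [map_mul δ, Units.val_mul] at k1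
  have e1 : r (g * h) w = r h w := by rw [← r_r, hg]
  have e2 : r (h⁻¹ * g⁻¹) w = r h⁻¹ w := by
    have h1 := hg g⁻¹
    rw [r_r, mul_inv_cancel, map_one, Module.End.one_apply] at h1
    rw [← r_r, ← h1]
  have e3 := hkill _ hδ ((δ h : O) • r h⁻¹ w)
  rw [e1, e2] at k1
  linear_combination (norm := module) k2 - k1 + e3

end level

/-- **[PS]** -/
theorem exists_pschar (I : ℕ → Ideal O) (hI0 : ∀ x, (∀ n, x ∈ I n) → x = 0)
    (hlim : ∀ f : ℕ → O, (∀ n, f (n + 1) - f n ∈ I n) → ∃ L, ∀ n, L - f n ∈ I n)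
    (δ : G →* Oˣ) (X : ℕ → Type*) [∀ n, AddCommGroup (X n)] [∀ n, Module O (X n)]
    (r : ∀ n, G →* Module.End O (X n)) (w : ∀ n, X n)
    (hann : ∀ n (a : O), a • w n = 0 → a ∈ I n)
    (hkill : ∀ n (a : O), a ∈ I n → ∀ x : X n, a • x = 0)
    (hquad : ∀ n g, ∃ a : O, ∀ h, Rel δ (r n) (w n) g a h)
    (hcompat : ∀ n g (a : O), (∀ h, Rel δ (r (n + 1)) (w (n + 1)) g a h) →
      ∀ h, Rel δ (r n) (w n) g a h) :
    ∃ a : G → O, (∀ n g h, Rel δ (r n) (w n) g (a g) h) ∧ a 1 = 2 ∧
      (∀ g h, a (g * h) + (δ h : O) * a (g * h⁻¹) = a g * a h) ∧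
      (∀ g h, a (g * h) = a (h * g)) ∧
      (∀ n g b, (∀ h, Rel δ (r n) (w n) g b h) → a g - b ∈ I n) ∧
      (∀ n g, (∀ h, r n g (r n h (w n)) = r n h (w n)) → (δ g : O) - 1 ∈ I n →
        ∀ h, a (g * h) - a h ∈ I n) := by
  choose a₀ ha₀ using hquad
  have hstep : ∀ g n, a₀ (n + 1) g - a₀ n g ∈ I n := fun g n =>
    hann n _ (smul_eq_zero_of_rel δ (r n) (w n) (hcompat n g _ (ha₀ (n + 1) g)) (ha₀ n g))
  choose a ha using fun g => hlim (fun n => a₀ n g) (hstep g)
  have hrel : ∀ n g h, Rel δ (r n) (w n) g (a g) h := by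
    intro n g h
    have h1 := ha₀ n g h
    unfold Rel at h1 ⊢
    have h2 := hkill n _ (ha g n) (r n g (r n h (w n)))
    rw [sub_smul, sub_eq_zero] at h2
    rw [h2]
    exact h1
  refine ⟨a, hrel, ?_, fun g h => ?_, fun g h => ?_, fun n g b hb => ?_, fun n g hg hδ h => ?_⟩
  · rw [← sub_eq_zero]
    exact hI0 _ fun n => hann n _ (one_smul' δ (r n) (w n) a (hrel n))
  · rw [← sub_eq_zero]
    exact hI0 _ fun n => hann n _ (mul_smul' δ (r n) (w n) a (hrel n) g h)
  · rw [← sub_eq_zero]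
    exact hI0 _ fun n => hann n _ (comm_smul' δ (r n) (w n) a (hrel n) g h)
  · exact hann n _ (smul_eq_zero_of_rel δ (r n) (w n) (hrel n g) hb)
  · exact hann n _ (triv_smul' δ (r n) (w n) a (hrel n) (I n) (hkill n) g hg hδ h)

end Fermat.Agent.S30.PS
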