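import Mathlib
import Fermat.Agent.S29.ThetaE
import Fermat.Agent.S29.GlueB

set_option autoImplicit false
set_option linter.style.haveILetI false

/-! # S30 [T]: the tower `Rel (p^(n+1)) → Rel (p^n)` and the transition maps `U/U^m → U/U^m'` -/

namespace Fermat.Agent.S30

open CongruenceSubgroup
open Fermat.Agent.S29 Fermat.Agent.S29.Glue
open Fermat.Agent.S24 (FN)

/-- the transition map `U / U^m → U / U^m'` for `m' ∣ m`. -/
noncomputable def trX (U : Type) [CommGroup U] {m m' : ℕ} (h : m' ∣ m) : Xq U m →+ Xq U m' :=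
  MonoidHom.toAdditive (QuotientGroup.map _ _ (MonoidHom.id U) (by
    rintro _ ⟨s, rfl⟩
    obtain ⟨d, rfl⟩ := h
    exact ⟨s ^ d, by
      show (s ^ d) ^ m' = s ^ (m' * d)
      rw [← pow_mul, mul_comm]⟩))

theorem trX_cls {U : Type} [CommGroup U] {m m' : ℕ} (h : m' ∣ m) (u : U) :
    trX U h (cls m u) = cls m' u := rfl

theorem trX_mapA {U : Type} [CommGroup U] {m m' : ℕ} (h : m' ∣ m) (e : U →* U) (x : Xq U m) :
    trX U h (mapA m e x) = mapA m' e (trX U h x) := by
  obtain ⟨u, rfl⟩ := cls_surj m x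
  rfl

theorem trX_surjective {U : Type} [CommGroup U] {m m' : ℕ} (h : m' ∣ m) :
    Function.Surjective (trX U h) := by
  intro x
  obtain ⟨u, rfl⟩ := cls_surj m' x
  exact ⟨cls m u, rfl⟩

variable {N : ℕ} [NeZero N]

/-- the tower of the relations. -/
theorem rel_succ (p : ℕ) [NeZero p] (n : ℕ) {c : Additive (Gamma0 N) →+ ZMod (p ^ (n + 1))}
    {f : FN N} (h : Th.Rel c f) :
    Th.Rel (Th.redHom (pow_dvd_pow p n.le_succ) c) f :=
  Th.Rel.red (pow_succ' p n) h

theorem rel_of_le (p : ℕ) [NeZero p] {n n' : ℕ} (hn : n' ≤ n)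
    {c : Additive (Gamma0 N) →+ ZMod (p ^ n)} {f : FN N} (h : Th.Rel c f) :
    Th.Rel (Th.redHom (pow_dvd_pow p hn) c) f :=
  Th.Rel.red (d := p ^ (n - n')) (by rw [← pow_add, Nat.sub_add_cancel hn]) h

end Fermat.Agent.S30
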